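import Mathlib
import Fermat.Agent.MU.S27.Zeta.Defs
import Fermat.Agent.MU.S27.Zeta.Fin
import Fermat.Agent.MU.S27.Zeta.Rational
import Fermat.Agent.S27.Abstract

section MergeWrap_S27_Zeta_Newton -- from S27/Zeta/Newton.lean

set_option autoImplicit false

/-!
# S27, part D, seat Z5a (NEWTON): Newton sequences of power series (pure algebra)

PROVED (helper13); helper lemmas: `newtonSer`, `isNewton_def`, `coeff_newtonSer_*`.

`IsNewton Z N : t Z' = Z Σ_{j ≥ 1} N_j t^j` (logarithmic derivative).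
* additivity under products, uniqueness (constant term `1`, no torsion), rescaling `t ↦ c t`;
* `1 - c t` has Newton sequence `- c^j`;
* the matrix statements (`isNewton_charpolyRev`, `exists_matrix_charpolyRev`) are in
  `Zeta/NewtonMat.lean` (seat Z5a-MAT).
-/

noncomputable section

open PowerSeries

namespace Fermat.Agent.S27

variable {R : Type*} [CommRing R]

/-- the series `Σ_{j ≥ 1} N_j t^j` -/
def newtonSer (N : ℕ → R) : R⟦X⟧ := PowerSeries.mk fun j => if j = 0 then 0 else N j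

theorem isNewton_def {Z : R⟦X⟧} {N : ℕ → R} :
    IsNewton Z N ↔ X * PowerSeries.derivative R Z = Z * newtonSer N := Iff.rfl

theorem coeff_newtonSer_zero (N : ℕ → R) : coeff 0 (newtonSer N) = 0 := by
  simp [newtonSer]

theorem coeff_newtonSer_succ (N : ℕ → R) (j : ℕ) : coeff (j + 1) (newtonSer N) = N (j + 1) := by
  simp [newtonSer]

theorem newtonSer_add (N N' : ℕ → R) :
    newtonSer (fun j => N j + N' j) = newtonSer N + newtonSer N' := by
  ext j
  rcases j with _ | j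
  · rw [map_add, coeff_newtonSer_zero, coeff_newtonSer_zero, coeff_newtonSer_zero, add_zero]
  · rw [map_add, coeff_newtonSer_succ, coeff_newtonSer_succ, coeff_newtonSer_succ]

/-- `X * φ` has the shifted coefficients -/
theorem newtonSer_eq_X_mul (N : ℕ → R) :
    newtonSer N = X * PowerSeries.mk fun j => N (j + 1) := by
  ext j
  rcases j with _ | j
  · simp [coeff_newtonSer_zero]
  · rw [coeff_newtonSer_succ, coeff_succ_X_mul, coeff_mk]

/-- the Newton sequence of a product is the sum of the Newton sequences -/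
theorem IsNewton.mul {Z Z' : R⟦X⟧} {N N' : ℕ → R} (h : IsNewton Z N) (h' : IsNewton Z' N') :
    IsNewton (Z * Z') (fun j => N j + N' j) := by
  rw [isNewton_def] at h h' ⊢
  rw [newtonSer_add, Derivation.leibniz, smul_eq_mul, smul_eq_mul]
  linear_combination Z' * h + Z * h'

theorem coeff_X_mul_derivative (Z : R⟦X⟧) (d : ℕ) :
    coeff d (X * PowerSeries.derivative R Z) = (d : R) * coeff d Z := by
  rcases d with _ | d
  · simp
  · rw [coeff_succ_X_mul, PowerSeries.coeff_derivative]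
    push_cast
    ring

theorem coeff_mul_newtonSer (Z : R⟦X⟧) (N : ℕ → R) (d : ℕ) :
    coeff d (Z * newtonSer N) = ∑ j ∈ Finset.range d, N (j + 1) * coeff (d - 1 - j) Z := by
  rw [mul_comm, PowerSeries.coeff_mul, Finset.Nat.sum_antidiagonal_eq_sum_range_succ_mk,
    Finset.sum_range_succ']
  simp only [coeff_newtonSer_zero, zero_mul, add_zero, coeff_newtonSer_succ]
  refine Finset.sum_congr rfl fun j _ => ?_
  rw [Nat.sub_sub, add_comm 1 j]

/-- the coefficient form of `IsNewton`: `d a_d = Σ_{j=1}^{d} N_j a_{d-j}` -/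
theorem isNewton_iff {Z : R⟦X⟧} {N : ℕ → R} :
    IsNewton Z N ↔ ∀ d : ℕ, (d : R) * coeff d Z
      = ∑ j ∈ Finset.range d, N (j + 1) * coeff (d - 1 - j) Z := by
  rw [isNewton_def, PowerSeries.ext_iff]
  refine forall_congr' fun d => ?_
  rw [coeff_X_mul_derivative, coeff_mul_newtonSer]

/-- a power series with constant term `1` is determined by its Newton sequence -/
theorem IsNewton.unique [IsDomain R] [CharZero R] {Z Z' : R⟦X⟧} {N N' : ℕ → R}
    (h : IsNewton Z N) (h' : IsNewton Z' N') (hN : ∀ j, 0 < j → N j = N' j)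
    (h0 : constantCoeff Z = 1) (h0' : constantCoeff Z' = 1) : Z = Z' := by
  rw [isNewton_iff] at h h'
  ext d
  induction d using Nat.strong_induction_on with
  | _ d ih =>
    rcases Nat.eq_zero_or_pos d with hd | hd
    · subst hd
      rw [coeff_zero_eq_constantCoeff_apply, coeff_zero_eq_constantCoeff_apply, h0, h0']
    · have hd0 : (d : R) ≠ 0 := Nat.cast_ne_zero.2 hd.ne'
      apply mul_left_cancel₀ hd0
      rw [h d, h' d]
      refine Finset.sum_congr rfl fun j hj => ?_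
      rw [Finset.mem_range] at hj
      rw [hN (j + 1) (Nat.succ_pos j), ih (d - 1 - j) (by omega)]

/-- `1 - c t` has Newton sequence `- c^j` -/
theorem isNewton_one_sub (c : R) : IsNewton (1 - C c * X : R⟦X⟧) (fun j => -c ^ j) := by
  rw [isNewton_def]
  have hder : PowerSeries.derivative R (1 - C c * X : R⟦X⟧) = -C c := by
    have h1 : (1 - C c * X : R⟦X⟧) = ((1 - Polynomial.C c * Polynomial.X : Polynomial R) : R⟦X⟧) := by
      simp
    rw [h1, PowerSeries.derivative_coe]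
    simp
  rw [hder]
  ext d
  rcases d with _ | d
  · simp [coeff_newtonSer_zero, PowerSeries.coeff_mul]
  · rw [coeff_succ_X_mul, sub_mul, one_mul, map_sub, coeff_newtonSer_succ, mul_assoc,
      PowerSeries.coeff_C_mul, coeff_succ_X_mul]
    rcases d with _ | d
    · simp [coeff_newtonSer_zero]
    · rw [coeff_newtonSer_succ]
      simp
      ring

/-- rescaling `t ↦ c t` -/
theorem IsNewton.rescale {Z : R⟦X⟧} {N : ℕ → R} (h : IsNewton Z N) (c : R) :
    IsNewton (PowerSeries.rescale c Z) (fun j => c ^ j * N j) := by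
  rw [isNewton_iff] at h ⊢
  intro d
  rw [PowerSeries.coeff_rescale]
  have e : (d : R) * (c ^ d * coeff d Z) = c ^ d * ((d : R) * coeff d Z) := by ring
  rw [e, h d, Finset.mul_sum]
  refine Finset.sum_congr rfl fun j hj => ?_
  rw [Finset.mem_range] at hj
  rw [PowerSeries.coeff_rescale]
  have hd : c ^ d = c ^ (j + 1) * c ^ (d - 1 - j) := by
    rw [← pow_add]
    congr 1
    omega
  rw [hd]
  ring

/-- change of coefficients -/
theorem IsNewton.map {R' : Type*} [CommRing R'] (φ : R →+* R') {Z : R⟦X⟧} {N : ℕ → R}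
    (h : IsNewton Z N) : IsNewton (PowerSeries.map φ Z) (fun j => φ (N j)) := by
  rw [isNewton_iff] at h ⊢
  intro d
  have := congrArg φ (h d)
  rw [map_mul, map_natCast, map_sum] at this
  rw [PowerSeries.coeff_map, this]
  refine Finset.sum_congr rfl fun j _ => ?_
  rw [map_mul, PowerSeries.coeff_map]

end Fermat.Agent.S27
end
end MergeWrap_S27_Zeta_Newton

section MergeWrap_S27_Zeta_NewtonMat -- from S27/Zeta/NewtonMat.lean

set_option autoImplicit false

/-!
# S27, part D, seat Z5a-MAT (NEWTON for matrices, pure algebra)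

PROVED (helper21): Jacobi's formula via dual numbers over `R⟦t⟧` (`nwj_derivative_charpolyRev`),
the matrix via the power basis of `AdjoinRoot (P.reflect n)`.

* `det (1 - t B)` has Newton sequence `- tr (B^j)`.  Proof: over `R⟦t⟧[s]`,
  `det (1 - (t + s) B) = det (1 - t B) det (1 - s B (1 - t B)⁻¹)`; the coefficient of `s` is
  `d/dt det (1 - t B) = - det (1 - t B) tr (B (1 - t B)⁻¹)` (`Matrix.derivative_det_one_add_X_smul`),
  and `(1 - t B)⁻¹ = Σ t^j B^j`.  (Or: Jacobi's formula with the adjugate / dual numbers.)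
* an integer polynomial `P` with `P(0) = 1` is `det (1 - t A)` for an integer matrix `A`
  (companion matrix of the reversed polynomial; or `Algebra.leftMulMatrix` of the root of
  `AdjoinRoot P.reverse` in its power basis + `Matrix.charpoly_leftMulMatrix`,
  `Matrix.reverse_charpoly`).
-/

noncomputable section

open PowerSeries

namespace Fermat.Agent.S27

variable {R : Type*} [CommRing R]


section Jacobi

variable {n : ℕ} (B : Matrix (Fin n) (Fin n) R)

/-- the matrix `Σ t^j B^j` over `R⟦t⟧` -/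
def nwjGeom : Matrix (Fin n) (Fin n) R⟦X⟧ := fun a b => PowerSeries.mk fun j => (B ^ j) a b

theorem nwj_one_sub_mul_geom :
    (1 - (X : R⟦X⟧) • B.map (C : R →+* R⟦X⟧)) * nwjGeom B = 1 := by
  ext a b d
  rw [Matrix.sub_mul, Matrix.one_mul, Matrix.smul_mul, Matrix.sub_apply, Matrix.smul_apply,
    smul_eq_mul, map_sub]
  cases d with
  | zero =>
    rw [coeff_zero_X_mul, sub_zero]
    simp only [nwjGeom, coeff_mk, pow_zero]
    by_cases hab : a = b
    · subst hab
      simp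
    · simp [Matrix.one_apply_ne hab]
  | succ d =>
    rw [coeff_succ_X_mul, Matrix.mul_apply, map_sum]
    simp only [nwjGeom, coeff_mk, Matrix.map_apply, coeff_C_mul]
    rw [pow_succ', Matrix.mul_apply, sub_self]
    by_cases hab : a = b
    · subst hab
      simp
    · simp [Matrix.one_apply_ne hab]

theorem nwj_trace_geom_mul :
    Matrix.trace (nwjGeom B * B.map (C : R →+* R⟦X⟧))
      = PowerSeries.mk fun j => (B ^ (j + 1)).trace := by
  ext d
  rw [coeff_mk, Matrix.trace, Matrix.trace, map_sum]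
  refine Finset.sum_congr rfl fun a _ => ?_
  rw [Matrix.diag_apply, Matrix.diag_apply, Matrix.mul_apply, map_sum, pow_succ, Matrix.mul_apply]
  refine Finset.sum_congr rfl fun c _ => ?_
  simp only [nwjGeom, Matrix.map_apply]
  rw [mul_comm, coeff_C_mul, coeff_mk, mul_comm]

theorem nwj_coe_charpolyRev :
    ((B.charpolyRev : Polynomial R) : R⟦X⟧)
      = Matrix.det (1 - (X : R⟦X⟧) • B.map (C : R →+* R⟦X⟧)) := by
  have h := RingHom.map_det (Polynomial.coeToPowerSeries.ringHom (R := R))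
    (1 - (Polynomial.X : Polynomial R) • B.map (Polynomial.C : R →+* Polynomial R))
  rw [Matrix.charpolyRev]
  rw [show ((Matrix.det (1 - (Polynomial.X : Polynomial R) • B.map (Polynomial.C)) :
      Polynomial R) : R⟦X⟧) = Polynomial.coeToPowerSeries.ringHom
        (Matrix.det (1 - (Polynomial.X : Polynomial R) • B.map (Polynomial.C))) from rfl, h]
  congr 1
  ext a b d
  simp [Matrix.map_apply, Matrix.sub_apply, Matrix.one_apply, apply_ite]
  exact mul_comm _ _

end Jacobi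

section Dual

variable {S : Type*} [CommRing S] {n : ℕ}

open TrivSqZeroExt in
/-- the first-order expansion of `det (M - ε N)` when `M` is invertible -/
theorem nwj_det_sub_eps (M V N : Matrix (Fin n) (Fin n) S) (hMV : M * V = 1) :
    Matrix.det (M.map (inlHom S S) - (DualNumber.eps : DualNumber S) • N.map (inlHom S S))
      = inlHom S S (Matrix.det M)
        - DualNumber.eps * inlHom S S (Matrix.det M * Matrix.trace (V * N)) := by
  have hMV' : M.map (inlHom S S) * V.map (inlHom S S) = 1 := by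
    have h1 := congrArg (inlHom S S).mapMatrix hMV
    rw [map_mul, map_one] at h1
    exact h1
  have hfac : M.map (inlHom S S) - (DualNumber.eps : DualNumber S) • N.map (inlHom S S)
      = M.map (inlHom S S) * (1 + (-(DualNumber.eps : DualNumber S)) •
          (V.map (inlHom S S) * N.map (inlHom S S))) := by
    rw [Matrix.mul_add, Matrix.mul_one, Matrix.mul_smul, ← Matrix.mul_assoc, hMV',
      Matrix.one_mul, neg_smul, sub_eq_add_neg]
  rw [hfac, Matrix.det_mul, Matrix.det_one_add_smul]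
  have heps : (-(DualNumber.eps : DualNumber S)) ^ 2 = 0 := by
    rw [neg_sq, pow_two, DualNumber.eps_mul_eps]
  rw [heps, mul_zero, add_zero]
  have hdet : Matrix.det (M.map (inlHom S S)) = inlHom S S (Matrix.det M) :=
    (RingHom.map_det (inlHom S S) M).symm
  have htr : Matrix.trace (V.map (inlHom S S) * N.map (inlHom S S))
      = inlHom S S (Matrix.trace (V * N)) := by
    rw [← Matrix.map_mul]
    exact (AddMonoidHom.map_trace (inlHom S S).toAddMonoidHom (V * N)).symm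
  rw [hdet, htr, map_mul]
  ring

end Dual


open TrivSqZeroExt in
/-- Jacobi's formula for `det (1 - t B)` in `R⟦t⟧` -/
theorem nwj_derivative_charpolyRev {n : ℕ} (B : Matrix (Fin n) (Fin n) R) :
    PowerSeries.derivative R ((B.charpolyRev : Polynomial R) : R⟦X⟧)
      = -(((B.charpolyRev : Polynomial R) : R⟦X⟧)
          * PowerSeries.mk fun j => (B ^ (j + 1)).trace) := by
  set P : Polynomial R := B.charpolyRev with hP
  let ι : R⟦X⟧ →+* DualNumber R⟦X⟧ := inlHom R⟦X⟧ R⟦X⟧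
  let f : R →+* DualNumber R⟦X⟧ := ι.comp (C : R →+* R⟦X⟧)
  have hε : (DualNumber.eps : DualNumber R⟦X⟧) ^ 2 = 0 := by
    rw [pow_two, DualNumber.eps_mul_eps]
  have h1 := Polynomial.eval_add_of_sq_eq_zero (P.map f) (ι X) DualNumber.eps hε
  have hev : ∀ z : DualNumber R⟦X⟧, (P.map f).eval z = Matrix.det (1 - z • B.map f) := by
    intro z
    rw [Polynomial.eval_map, hP, Matrix.charpolyRev, ← Polynomial.coe_eval₂RingHom,
      RingHom.map_det]
    congr 1
    refine Matrix.ext fun a b => ?_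
    simp only [RingHom.mapMatrix_apply, Matrix.map_apply, Matrix.sub_apply, Matrix.smul_apply,
      Matrix.one_apply, map_sub, smul_eq_mul, Polynomial.coe_eval₂RingHom]
    split_ifs <;> simp <;> exact mul_comm _ _
  have hx : (P.map f).eval (ι X) = ι (P : R⟦X⟧) := by
    rw [Polynomial.eval_map, ← Polynomial.eval₂_C_X_eq_coe, Polynomial.hom_eval₂]
  have hdx : (P.map f).derivative.eval (ι X) = ι (PowerSeries.derivative R (P : R⟦X⟧)) := by
    rw [Polynomial.derivative_map, Polynomial.eval_map, PowerSeries.derivative_coe,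
      ← Polynomial.eval₂_C_X_eq_coe, Polynomial.hom_eval₂]
  have hdet := nwj_det_sub_eps (1 - (X : R⟦X⟧) • B.map (C : R →+* R⟦X⟧)) (nwjGeom B)
    (B.map (C : R →+* R⟦X⟧)) (nwj_one_sub_mul_geom B)
  have hmat : (1 - (X : R⟦X⟧) • B.map (C : R →+* R⟦X⟧)).map ι
      - (DualNumber.eps : DualNumber R⟦X⟧) • (B.map (C : R →+* R⟦X⟧)).map ι
        = 1 - (ι X + DualNumber.eps) • B.map f := by
    refine Matrix.ext fun a b => ?_
    simp only [Matrix.map_apply, Matrix.sub_apply, Matrix.smul_apply, Matrix.one_apply, map_sub,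
      smul_eq_mul, map_mul, f, RingHom.comp_apply]
    split_ifs <;> simp <;> ring
  rw [hev, ← hmat, hdet, hx, hdx, ← nwj_coe_charpolyRev, nwj_trace_geom_mul] at h1
  have h2 := congrArg TrivSqZeroExt.snd h1
  simp only [ι, inlHom_apply, snd_sub, snd_add, snd_inl, DualNumber.snd_mul, DualNumber.fst_eps,
    DualNumber.snd_eps, fst_inl, mul_one, zero_add, zero_sub, mul_zero, add_zero,
    one_mul] at h2
  rw [← h2]

/-- **Newton's identities for a matrix**: `det (1 - t B)` has Newton sequence `- tr (B^j)` -/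
theorem isNewton_charpolyRev {n : ℕ} (B : Matrix (Fin n) (Fin n) R) :
    IsNewton ((B.charpolyRev : Polynomial R) : R⟦X⟧) (fun j => -(B ^ j).trace) := by
  unfold IsNewton
  rw [nwj_derivative_charpolyRev]
  have hS : (PowerSeries.mk fun j => if j = 0 then 0 else -(B ^ j).trace)
      = - (X * PowerSeries.mk fun j => (B ^ (j + 1)).trace) := by
    ext d
    rw [coeff_mk, map_neg]
    cases d with
    | zero => simp
    | succ d => rw [coeff_succ_X_mul, coeff_mk, if_neg (Nat.succ_ne_zero d)]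
  rw [hS]
  ring

/-- an integer polynomial with constant term `1` is `det (1 - t A)` -/
theorem exists_matrix_charpolyRev (P : Polynomial ℤ) (n : ℕ) (hdeg : P.natDegree = n)
    (h0 : P.coeff 0 = 1) :
    ∃ A : Matrix (Fin n) (Fin n) ℤ, A.charpolyRev = P ∧ A.det = (-1) ^ n * P.leadingCoeff := by
  set G : Polynomial ℤ := P.reflect n with hG
  have hGn : G.coeff n = 1 := by
    rw [hG, Polynomial.coeff_reflect, Polynomial.revAt_le le_rfl, Nat.sub_self, h0]
  have hGdeg_le : G.natDegree ≤ n := by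
    have := Polynomial.natDegree_reflect_le (N := n) (p := P)
    rw [hdeg, max_self] at this
    exact this
  have hGmonic : G.Monic := Polynomial.monic_of_natDegree_le_of_coeff_eq_one n hGdeg_le hGn
  have hGdeg : G.natDegree = n := by
    refine le_antisymm hGdeg_le ?_
    refine Polynomial.le_natDegree_of_ne_zero ?_
    rw [hGn]
    exact one_ne_zero
  let pb := AdjoinRoot.powerBasis' hGmonic
  have hdim : pb.dim = n := hGdeg
  have hmin : minpoly ℤ pb.gen = G := by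
    symm
    refine minpoly.unique' ℤ pb.gen hGmonic ?_ ?_
    · show Polynomial.aeval (AdjoinRoot.root G) G = 0
      rw [AdjoinRoot.aeval_eq, AdjoinRoot.mk_self]
    · intro q hq
      by_cases hq0 : q = 0
      · exact Or.inl hq0
      · right
        intro hzero
        have hzero' : Polynomial.aeval (AdjoinRoot.root G) q = 0 := hzero
        rw [AdjoinRoot.aeval_eq, AdjoinRoot.mk_eq_zero] at hzero'
        exact hq0 (Polynomial.eq_zero_of_dvd_of_degree_lt hzero' hq)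
  let M0 : Matrix (Fin pb.dim) (Fin pb.dim) ℤ := Algebra.leftMulMatrix pb.basis pb.gen
  have hchar0 : M0.charpoly = G := (charpoly_leftMulMatrix pb).trans hmin
  refine ⟨Matrix.reindex (finCongr hdim) (finCongr hdim) M0, ?_, ?_⟩
  · rw [← Matrix.reverse_charpoly, Matrix.charpoly_reindex, hchar0, Polynomial.reverse, hGdeg, hG,
      Polynomial.reflect_reflect]
  · rw [Matrix.det_eq_sign_charpoly_coeff, Matrix.charpoly_reindex, hchar0, Fintype.card_fin, hG,
      Polynomial.coeff_reflect, Polynomial.revAt_le (Nat.zero_le n), Nat.sub_zero,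
      Polynomial.leadingCoeff, hdeg]

end Fermat.Agent.S27
end
end MergeWrap_S27_Zeta_NewtonMat

section MergeWrap_S27_Zeta_OrbitRec -- from S27/Zeta/OrbitRec.lean

set_option autoImplicit false

/-!
# S27, part D, seat Z5b-ABS: the abstract orbit recursion (pure combinatorics, Mathlib only)

PROVED (helper21); helper lemmas `orc*`.

`X` a set with a permutation `τ` whose powers `τ^j` (`j ≥ 1`) have finitely many fixed points and
whose orbits are finite.  A *divisor* is `D : X →₀ ℤ`; it is invariant if `mapDomain τ D = D`; its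
degree is the sum of its coefficients.  `w` is a weight on divisors, multiplicative on invariant
effective divisors.  With
  `a_d = Σ_{D ≥ 0 invariant of degree d} w D`,
  `s_j = Σ_{τ^j x = x} w (x + τ x + ⋯ + τ^{j-1} x)`
one has `d a_d = Σ_{j=1}^{d} s_j a_{d-j}`.

Proof.  For an invariant effective `D` of degree `d`: `d = Σ_x D(x)`, and for every `x`
  `D(x) = #{j ≥ 1 | τ^j x = x, x + τ x + ⋯ + τ^{j-1} x ≤ D}`
(the `j` are the multiples `i e` of the length `e` of the orbit `O` of `x`, and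
`x + ⋯ + τ^{ie-1} x = i O ≤ D ⟺ i ≤ D(x)`); `D' ↦ D' + (x + ⋯ + τ^{j-1} x)` is a bijection from the
invariant effective divisors of degree `d - j` onto those of degree `d` which are
`≥ x + ⋯ + τ^{j-1} x`.
-/

namespace Fermat.Agent.S27

open Function

section OrbitRec

open Classical

variable {X : Type*} (τ : Equiv.Perm X)

/-- the divisor `x + τ x + ⋯ + τ^{j-1} x` -/
noncomputable def orcN (j : ℕ) (x : X) : X →₀ ℤ :=
  ∑ i ∈ Finset.range j, Finsupp.single ((τ ^ i) x) (1 : ℤ)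

/-- the degree, as an additive map -/
noncomputable def orcDeg : (X →₀ ℤ) →+ ℤ := Finsupp.liftAddHom fun _ => AddMonoidHom.id ℤ

theorem orcDeg_apply (D : X →₀ ℤ) : orcDeg D = D.sum fun _ n => n := by
  simp only [orcDeg, Finsupp.liftAddHom_apply]
  rfl

theorem orcDeg_single (x : X) (n : ℤ) : orcDeg (Finsupp.single x n) = n := by
  simp [orcDeg]

theorem orcDeg_nonneg {D : X →₀ ℤ} (hD : 0 ≤ D) : 0 ≤ orcDeg D := by
  rw [orcDeg_apply, Finsupp.sum]
  exact Finset.sum_nonneg fun x _ => hD x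

theorem orcDeg_mono {D E : X →₀ ℤ} (h : D ≤ E) : orcDeg D ≤ orcDeg E := by
  have h1 : 0 ≤ E - D := fun x => by
    simp only [Finsupp.coe_zero, Pi.zero_apply, Finsupp.coe_sub, Pi.sub_apply]
    exact sub_nonneg.mpr (h x)
  have h2 := orcDeg_nonneg h1
  rw [map_sub] at h2
  linarith

theorem orcDeg_N (j : ℕ) (x : X) : orcDeg (orcN τ j x) = j := by
  rw [orcN, map_sum]
  simp [orcDeg_single]

theorem orcN_nonneg (j : ℕ) (x : X) : 0 ≤ orcN τ j x := by
  rw [orcN]
  refine Finset.sum_nonneg fun i _ => ?_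
  intro y
  classical
  rw [Finsupp.coe_zero, Pi.zero_apply, Finsupp.single_apply]
  split_ifs <;> norm_num

theorem orcN_add (a b : ℕ) (x : X) :
    orcN τ (a + b) x = orcN τ a x + orcN τ b ((τ ^ a) x) := by
  rw [orcN, orcN, orcN, Finset.sum_range_add]
  congr 1
  refine Finset.sum_congr rfl fun i _ => ?_
  rw [add_comm a i, pow_add, Equiv.Perm.mul_apply]

theorem orcN_mul {e : ℕ} {x : X} (he : (τ ^ e) x = x) (t : ℕ) :
    orcN τ (e * t) x = t • orcN τ e x := by
  induction t with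
  | zero => simp [orcN]
  | succ t ih =>
    have hpow : (τ ^ (e * t)) x = x := by
      rw [pow_mul]
      clear ih
      induction t with
      | zero => simp
      | succ t ih2 => rw [pow_succ, Equiv.Perm.mul_apply, he, ih2]
    rw [Nat.mul_succ, orcN_add, ih, hpow, succ_nsmul]

theorem orcN_inv {j : ℕ} {x : X} (h : (τ ^ j) x = x) :
    Finsupp.mapDomain τ (orcN τ j x) = orcN τ j x := by
  rw [orcN, Finsupp.mapDomain_finsetSum]
  simp only [Finsupp.mapDomain_single]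
  have h1 : ∀ i : ℕ, τ ((τ ^ i) x) = (τ ^ (i + 1)) x := fun i => by
    rw [pow_succ', Equiv.Perm.mul_apply]
  simp only [h1]
  have h2 := Finset.sum_range_succ (fun i => Finsupp.single ((τ ^ i) x) (1 : ℤ)) j
  have h3 := Finset.sum_range_succ' (fun i => Finsupp.single ((τ ^ i) x) (1 : ℤ)) j
  rw [h2] at h3
  simp only [h, pow_zero, Equiv.Perm.coe_one, id_eq] at h3
  exact (add_right_cancel h3).symm

theorem orc_inv_apply {D : X →₀ ℤ} (hD : Finsupp.mapDomain τ D = D) (y : X) : D (τ y) = D y := by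
  conv_lhs => rw [← hD]
  exact Finsupp.mapDomain_apply τ.injective D y

theorem orc_inv_apply_pow {D : X →₀ ℤ} (hD : Finsupp.mapDomain τ D = D) (i : ℕ) (y : X) :
    D ((τ ^ i) y) = D y := by
  induction i with
  | zero => simp
  | succ i ih => rw [pow_succ', Equiv.Perm.mul_apply, orc_inv_apply τ hD, ih]

theorem orcN_apply (j : ℕ) (x y : X) :
    orcN τ j x y = ∑ i ∈ Finset.range j, if (τ ^ i) x = y then (1 : ℤ) else 0 := by
  rw [orcN, Finsupp.finsetSum_apply]
  refine Finset.sum_congr rfl fun i _ => ?_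
  rw [Finsupp.single_apply]

theorem orc_pow_eq_iterate (i : ℕ) (x : X) : (τ ^ i) x = (⇑τ)^[i] x := by
  rw [Equiv.Perm.iterate_eq_pow]

/-- on the minimal period the divisor of the orbit has coefficients `0` or `1` -/
theorem orcN_minimal_le_one (x y : X) : orcN τ (minimalPeriod τ x) x y ≤ 1 := by
  classical
  rw [orcN_apply, Finset.sum_ite, Finset.sum_const_zero, add_zero, Finset.sum_const,
    nsmul_one]
  have : ((Finset.range (minimalPeriod τ x)).filter fun i => (τ ^ i) x = y).card ≤ 1 := by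
    rw [Finset.card_le_one]
    intro a ha b hb
    rw [Finset.mem_filter, Finset.mem_range] at ha hb
    have hinj := iterate_injOn_Iio_minimalPeriod (f := ⇑τ) (x := x)
    apply hinj (Set.mem_Iio.mpr ha.1) (Set.mem_Iio.mpr hb.1)
    show (⇑τ)^[a] x = (⇑τ)^[b] x
    rw [← orc_pow_eq_iterate, ← orc_pow_eq_iterate, ha.2, hb.2]
  exact_mod_cast this

theorem orcN_pos_imp {j : ℕ} {x y : X} (h : 0 < orcN τ j x y) : ∃ i, (τ ^ i) x = y := by
  classical
  rw [orcN_apply] at h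
  by_contra hne
  rw [not_exists] at hne
  have : ∑ i ∈ Finset.range j, (if (τ ^ i) x = y then (1 : ℤ) else 0) = 0 :=
    Finset.sum_eq_zero fun i _ => if_neg (hne i)
  omega

theorem orcN_self_pos {j : ℕ} (hj : 0 < j) (x : X) : 1 ≤ orcN τ j x x := by
  classical
  rw [orcN_apply]
  have h0 : (0 : ℕ) ∈ Finset.range j := Finset.mem_range.mpr hj
  calc (1 : ℤ) = if (τ ^ 0) x = x then (1 : ℤ) else 0 := by simp
    _ ≤ _ := Finset.single_le_sum (f := fun i => if (τ ^ i) x = x then (1 : ℤ) else 0)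
        (fun i _ => by split_ifs <;> norm_num) h0

theorem orcN_minimal_self {x : X} (hx : 0 < minimalPeriod τ x) :
    orcN τ (minimalPeriod τ x) x x = 1 :=
  le_antisymm (orcN_minimal_le_one τ x x) (orcN_self_pos τ hx x)

/-- `t O_x ≤ D ⟺ t ≤ D(x)` for an invariant effective divisor `D` -/
theorem orcN_le_iff {D : X →₀ ℤ} (hD0 : 0 ≤ D) (hD : Finsupp.mapDomain τ D = D) {x : X}
    (hx : 0 < minimalPeriod τ x) (t : ℕ) :
    t • orcN τ (minimalPeriod τ x) x ≤ D ↔ (t : ℤ) ≤ D x := by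
  constructor
  · intro h
    have := h x
    rw [Finsupp.smul_apply, orcN_minimal_self τ hx, nsmul_one] at this
    exact_mod_cast this
  · intro h y
    rw [Finsupp.smul_apply]
    by_cases hy : 0 < orcN τ (minimalPeriod τ x) x y
    · obtain ⟨i, hi⟩ := orcN_pos_imp τ hy
      have h1 : orcN τ (minimalPeriod τ x) x y = 1 :=
        le_antisymm (orcN_minimal_le_one τ x y) hy
      rw [h1, nsmul_one, ← hi, orc_inv_apply_pow τ hD]
      exact h
    · have h1 : orcN τ (minimalPeriod τ x) x y = 0 :=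
        le_antisymm (not_lt.mp hy) (orcN_nonneg τ _ x y)
      rw [h1, smul_zero]
      exact hD0 y

theorem orc_minimal_pow (x : X) : (τ ^ minimalPeriod τ x) x = x := by
  rw [orc_pow_eq_iterate]
  exact isPeriodicPt_minimalPeriod τ x

theorem orc_minimal_pos {x : X} {j : ℕ} (hj : 0 < j) (h : (τ ^ j) x = x) :
    0 < minimalPeriod τ x := by
  apply IsPeriodicPt.minimalPeriod_pos hj
  show (⇑τ)^[j] x = x
  rw [← orc_pow_eq_iterate, h]

theorem orc_minimal_dvd {x : X} {j : ℕ} (h : (τ ^ j) x = x) : minimalPeriod τ x ∣ j := by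
  apply IsPeriodicPt.minimalPeriod_dvd
  show (⇑τ)^[j] x = x
  rw [← orc_pow_eq_iterate, h]

/-- the degree bounds the orbit length times the multiplicity -/
theorem orc_deg_ge {D : X →₀ ℤ} (hD0 : 0 ≤ D) (hD : Finsupp.mapDomain τ D = D) {x : X}
    (hx : 0 < minimalPeriod τ x) : (minimalPeriod τ x : ℤ) * D x ≤ orcDeg D := by
  have hDx : 0 ≤ D x := hD0 x
  have h1 : (D x).toNat • orcN τ (minimalPeriod τ x) x ≤ D := by
    rw [orcN_le_iff τ hD0 hD hx, Int.toNat_of_nonneg hDx]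
  have h2 := orcDeg_mono h1
  rw [map_nsmul, orcDeg_N, nsmul_eq_mul, Int.toNat_of_nonneg hDx] at h2
  linarith [mul_comm (D x) (minimalPeriod τ x : ℤ)]

/-- the set of invariant effective divisors of degree `d` -/
def orcInv (d : ℕ) : Set (X →₀ ℤ) :=
  {D | 0 ≤ D ∧ (D.sum fun _ n => n) = (d : ℤ) ∧ Finsupp.mapDomain τ D = D}

theorem mem_orcInv {d : ℕ} {D : X →₀ ℤ} :
    D ∈ orcInv τ d ↔ 0 ≤ D ∧ orcDeg D = (d : ℤ) ∧ Finsupp.mapDomain τ D = D := by
  rw [orcDeg_apply]
  rfl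

/-- **the count**: `D(x)` is the number of `j` with `τ^j x = x` and `x + ⋯ + τ^{j-1} x ≤ D` -/
theorem orc_count {d : ℕ} {D : X →₀ ℤ} (hD : D ∈ orcInv τ d) (x : X)
    (hx : 0 < minimalPeriod τ x) :
    ((Finset.range d).filter fun j => (τ ^ (j + 1)) x = x ∧ orcN τ (j + 1) x ≤ D).card
      = (D x).toNat := by
  rw [mem_orcInv] at hD
  obtain ⟨hD0, hdeg, hinv⟩ := hD
  set e := minimalPeriod τ x with he
  have hDx : 0 ≤ D x := hD0 x
  have hbound := orc_deg_ge τ hD0 hinv hx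
  rw [hdeg, ← he] at hbound
  have hset : ((Finset.range d).filter fun j => (τ ^ (j + 1)) x = x ∧ orcN τ (j + 1) x ≤ D)
      = (Finset.range (D x).toNat).image fun t => e * (t + 1) - 1 := by
    ext j
    rw [Finset.mem_filter, Finset.mem_range, Finset.mem_image]
    constructor
    · rintro ⟨hj, hper, hle⟩
      obtain ⟨s, hs⟩ := orc_minimal_dvd τ hper
      rw [← he] at hs
      have hs0 : 0 < s := by
        rcases Nat.eq_zero_or_pos s with h0 | h0
        · rw [h0, mul_zero] at hs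
          omega
        · exact h0
      rw [hs, orcN_mul τ (orc_minimal_pow τ x), orcN_le_iff τ hD0 hinv hx] at hle
      refine ⟨s - 1, ?_, ?_⟩
      · rw [Finset.mem_range]
        omega
      · rw [Nat.sub_add_cancel hs0, ← hs]
        omega
    · rintro ⟨t, ht, rfl⟩
      rw [Finset.mem_range] at ht
      have hpos : 0 < e * (t + 1) := Nat.mul_pos hx (Nat.succ_pos t)
      have hsucc : e * (t + 1) - 1 + 1 = e * (t + 1) := Nat.sub_add_cancel hpos
      have ht' : ((t + 1 : ℕ) : ℤ) ≤ D x := by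
        have : t + 1 ≤ (D x).toNat := ht
        omega
      refine ⟨?_, ?_, ?_⟩
      · have h1 : (e : ℤ) * ((t + 1 : ℕ) : ℤ) ≤ (e : ℤ) * D x :=
          mul_le_mul_of_nonneg_left ht' (Int.natCast_nonneg e)
        have h2 : ((e * (t + 1) : ℕ) : ℤ) ≤ (d : ℤ) := by
          push_cast
          push_cast at h1
          linarith
        have h3 : e * (t + 1) ≤ d := by exact_mod_cast h2
        omega
      · rw [hsucc, pow_mul]
        have key : ∀ n : ℕ, ((τ ^ e) ^ n) x = x := by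
          intro n
          induction n with
          | zero => simp
          | succ n ih => rw [pow_succ, Equiv.Perm.mul_apply, orc_minimal_pow τ x, ih]
        exact key (t + 1)
      · rw [hsucc, orcN_mul τ (orc_minimal_pow τ x), orcN_le_iff τ hD0 hinv hx]
        exact ht'
  rw [hset, Finset.card_image_of_injective, Finset.card_range]
  intro a b hab
  simp only at hab
  have ha : 0 < e * (a + 1) := Nat.mul_pos hx (Nat.succ_pos a)
  have hb : 0 < e * (b + 1) := Nat.mul_pos hx (Nat.succ_pos b)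
  have h1 : e * (a + 1) = e * (b + 1) := by omega
  have h2 := Nat.eq_of_mul_eq_mul_left hx h1
  omega

section Finite

variable (hfix : ∀ j : ℕ, 0 < j → {x : X | (τ ^ j) x = x}.Finite)
  (horb : ∀ x : X, ∃ j : ℕ, 0 < j ∧ (τ ^ j) x = x)

/-- the fixed points of `τ^(j+1)` as a finset -/
noncomputable def orcFix (j : ℕ) : Finset X := (hfix (j + 1) (Nat.succ_pos j)).toFinset

theorem mem_orcFix {j : ℕ} {x : X} : x ∈ orcFix τ hfix j ↔ (τ ^ (j + 1)) x = x := by
  rw [orcFix, Set.Finite.mem_toFinset]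
  rfl

/-- the points with orbit of length `≤ d` -/
noncomputable def orcU (d : ℕ) : Finset X := (Finset.range d).biUnion fun j => orcFix τ hfix j

theorem orcFix_subset_orcU {d j : ℕ} (hj : j < d) : orcFix τ hfix j ⊆ orcU τ hfix d :=
  Finset.subset_biUnion_of_mem (fun j => orcFix τ hfix j) (Finset.mem_range.mpr hj)

include horb in
theorem orc_periodic (x : X) : 0 < minimalPeriod τ x := by
  obtain ⟨j, hj, hx⟩ := horb x
  exact orc_minimal_pos τ hj hx

include horb in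
theorem orc_mem_orcU {d : ℕ} {D : X →₀ ℤ} (hD : D ∈ orcInv τ d) {x : X} (hx : D x ≠ 0) :
    x ∈ orcU τ hfix d := by
  have hD' := (mem_orcInv τ).mp hD
  obtain ⟨hD0, hdeg, hinv⟩ := hD'
  have hpos := orc_periodic τ horb x
  have hb := orc_deg_ge τ hD0 hinv hpos
  rw [hdeg] at hb
  have hDx : 1 ≤ D x := by
    have := hD0 x
    simp only [Finsupp.coe_zero, Pi.zero_apply] at this
    omega
  have he : (minimalPeriod τ x : ℤ) ≤ d := by nlinarith
  have he' : minimalPeriod τ x ≤ d := by exact_mod_cast he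
  rw [orcU, Finset.mem_biUnion]
  refine ⟨minimalPeriod τ x - 1, Finset.mem_range.mpr (by omega), ?_⟩
  rw [mem_orcFix, Nat.sub_add_cancel hpos]
  exact orc_minimal_pow τ x

include horb in
theorem orc_apply_le {d : ℕ} {D : X →₀ ℤ} (hD : D ∈ orcInv τ d) (x : X) : D x ≤ d := by
  have hD' := (mem_orcInv τ).mp hD
  obtain ⟨hD0, hdeg, hinv⟩ := hD'
  have hpos := orc_periodic τ horb x
  have hb := orc_deg_ge τ hD0 hinv hpos
  rw [hdeg] at hb
  have hDx : 0 ≤ D x := hD0 x
  have h1 : (1 : ℤ) ≤ minimalPeriod τ x := by exact_mod_cast hpos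
  nlinarith

include hfix horb in
theorem orcInv_finite (d : ℕ) : (orcInv τ d).Finite := by
  refine Set.Finite.subset
    (Finset.finite_toSet ((orcU τ hfix d).finsupp fun _ => Finset.Icc (0 : ℤ) d)) ?_
  intro D hD
  rw [Finset.mem_coe, Finset.mem_finsupp_iff]
  refine ⟨fun x hx => ?_, fun x _ => ?_⟩
  · exact orc_mem_orcU τ hfix horb hD (Finsupp.mem_support_iff.mp hx)
  · rw [Finset.mem_Icc]
    exact ⟨((mem_orcInv τ).mp hD).1 x, orc_apply_le τ horb hD x⟩

include horb in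
/-- `d = Σ_j #{x | τ^(j+1) x = x, x + ⋯ + τ^j x ≤ D}` -/
theorem orc_double_count {d : ℕ} {D : X →₀ ℤ} (hD : D ∈ orcInv τ d) :
    ∑ j ∈ Finset.range d, ∑ x ∈ orcFix τ hfix j,
      (if orcN τ (j + 1) x ≤ D then 1 else 0 : ℕ) = d := by
  have hD' := (mem_orcInv τ).mp hD
  obtain ⟨hD0, hdeg, hinv⟩ := hD'
  have h1 : ∀ j ∈ Finset.range d, ∑ x ∈ orcFix τ hfix j,
      (if orcN τ (j + 1) x ≤ D then 1 else 0 : ℕ)
      = ∑ x ∈ orcU τ hfix d,
        (if (τ ^ (j + 1)) x = x ∧ orcN τ (j + 1) x ≤ D then 1 else 0 : ℕ) := by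
    intro j hj
    rw [← Finset.sum_subset (orcFix_subset_orcU τ hfix (Finset.mem_range.mp hj))]
    · refine Finset.sum_congr rfl fun x hx => ?_
      rw [mem_orcFix] at hx
      simp only [hx, true_and]
    · intro x _ hx
      rw [mem_orcFix] at hx
      simp only [hx, false_and, if_false]
  rw [Finset.sum_congr rfl h1, Finset.sum_comm]
  have h2 : ∀ x ∈ orcU τ hfix d, ∑ j ∈ Finset.range d,
      (if (τ ^ (j + 1)) x = x ∧ orcN τ (j + 1) x ≤ D then 1 else 0 : ℕ) = (D x).toNat := by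
    intro x _
    rw [← orc_count τ hD x (orc_periodic τ horb x), Finset.card_filter]
  rw [Finset.sum_congr rfl h2]
  have h3 : ((∑ x ∈ orcU τ hfix d, (D x).toNat : ℕ) : ℤ) = d := by
    push_cast
    rw [← hdeg, orcDeg_apply, Finsupp.sum]
    have h4 : ∀ x ∈ orcU τ hfix d, ((D x).toNat : ℤ) = D x := fun x _ =>
      Int.toNat_of_nonneg (hD0 x)
    rw [Finset.sum_congr rfl h4]
    symm
    refine Finset.sum_subset (fun x hx => ?_) (fun x _ hx => ?_)
    · exact orc_mem_orcU τ hfix horb hD (Finsupp.mem_support_iff.mp hx)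
    · exact Finsupp.notMem_support_iff.mp hx
  exact_mod_cast h3

include horb in
/-- the bijection `D' ↦ D' + N` on the level of sums -/
theorem orc_sum_shift {R : Type*} [CommRing R] (w : (X →₀ ℤ) → R)
    (hw : ∀ D E : X →₀ ℤ, 0 ≤ D → 0 ≤ E → Finsupp.mapDomain τ D = D →
      Finsupp.mapDomain τ E = E → w (D + E) = w D * w E)
    {d j : ℕ} (hj : j < d) {x : X} (hx : (τ ^ (j + 1)) x = x) :
    ∑ D ∈ (orcInv_finite τ hfix horb d).toFinset, (if orcN τ (j + 1) x ≤ D then w D else 0)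
      = w (orcN τ (j + 1) x) * ∑ D ∈ (orcInv_finite τ hfix horb (d - 1 - j)).toFinset, w D := by
  set N := orcN τ (j + 1) x with hN
  have hN0 : 0 ≤ N := orcN_nonneg τ _ x
  have hNinv : Finsupp.mapDomain τ N = N := orcN_inv τ hx
  have hNdeg : orcDeg N = ((j + 1 : ℕ) : ℤ) := orcDeg_N τ _ x
  rw [← Finset.sum_filter, Finset.mul_sum]
  symm
  refine Finset.sum_bij' (fun D' _ => D' + N) (fun D _ => D - N) ?_ ?_ ?_ ?_ ?_
  · intro D' hD'
    rw [Set.Finite.mem_toFinset, mem_orcInv] at hD'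
    obtain ⟨h0, hdeg, hinv⟩ := hD'
    rw [Finset.mem_filter, Set.Finite.mem_toFinset, mem_orcInv]
    refine ⟨⟨add_nonneg h0 hN0, ?_, ?_⟩, ?_⟩
    · rw [map_add, hdeg, hNdeg]
      push_cast
      omega
    · rw [Finsupp.mapDomain_add, hinv, hNinv]
    · exact le_add_of_nonneg_left h0
  · intro D hD
    rw [Finset.mem_filter, Set.Finite.mem_toFinset, mem_orcInv] at hD
    obtain ⟨⟨h0, hdeg, hinv⟩, hle⟩ := hD
    rw [Set.Finite.mem_toFinset, mem_orcInv]
    refine ⟨sub_nonneg.mpr hle, ?_, ?_⟩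
    · rw [map_sub, hdeg, hNdeg]
      push_cast
      omega
    · have := Finsupp.mapDomain_add (f := τ) (v₁ := D - N) (v₂ := N)
      rw [sub_add_cancel, hinv, hNinv] at this
      have h2 : D - N + N = Finsupp.mapDomain τ (D - N) + N := by
        rw [sub_add_cancel]
        exact this
      exact (add_right_cancel h2).symm
  · intro D' _
    exact add_sub_cancel_right D' N
  · intro D _
    exact sub_add_cancel D N
  · intro D' hD'
    rw [Set.Finite.mem_toFinset, mem_orcInv] at hD'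
    obtain ⟨h0, -, hinv⟩ := hD'
    rw [hw D' N h0 hN0 hinv hNinv, mul_comm]

end Finite

end OrbitRec

/-- **Seat Z5b-ABS.**  The abstract orbit recursion. -/
theorem orbit_recursion {X : Type*} {R : Type*} [CommRing R] (τ : Equiv.Perm X)
    (hfix : ∀ j : ℕ, 0 < j → {x : X | (τ ^ j) x = x}.Finite)
    (horb : ∀ x : X, ∃ j : ℕ, 0 < j ∧ (τ ^ j) x = x)
    (w : (X →₀ ℤ) → R)
    (hw : ∀ D E : X →₀ ℤ, 0 ≤ D → 0 ≤ E → Finsupp.mapDomain τ D = D →
      Finsupp.mapDomain τ E = E → w (D + E) = w D * w E)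
    (d : ℕ) :
    (d : R) * ∑ᶠ D ∈ {D : X →₀ ℤ | 0 ≤ D ∧ (D.sum fun _ n => n) = (d : ℤ) ∧
        Finsupp.mapDomain τ D = D}, w D
      = ∑ j ∈ Finset.range d,
          (∑ᶠ x ∈ {x : X | (τ ^ (j + 1)) x = x},
              w (∑ i ∈ Finset.range (j + 1), Finsupp.single ((τ ^ i) x) (1 : ℤ)))
            * ∑ᶠ D ∈ {D : X →₀ ℤ | 0 ≤ D ∧ (D.sum fun _ n => n) = ((d - 1 - j : ℕ) : ℤ) ∧
                Finsupp.mapDomain τ D = D}, w D := by
  classical
  have hA : ∀ e : ℕ, ∑ᶠ D ∈ {D : X →₀ ℤ | 0 ≤ D ∧ (D.sum fun _ n => n) = (e : ℤ) ∧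
      Finsupp.mapDomain τ D = D}, w D = ∑ D ∈ (orcInv_finite τ hfix horb e).toFinset, w D :=
    fun e => finsum_mem_eq_finite_toFinset_sum w (orcInv_finite τ hfix horb e)
  have hX : ∀ j : ℕ, ∑ᶠ x ∈ {x : X | (τ ^ (j + 1)) x = x},
      w (∑ i ∈ Finset.range (j + 1), Finsupp.single ((τ ^ i) x) (1 : ℤ))
        = ∑ x ∈ orcFix τ hfix j, w (orcN τ (j + 1) x) :=
    fun j => finsum_mem_eq_finite_toFinset_sum _ (hfix (j + 1) (Nat.succ_pos j))
  rw [hA d]
  simp only [hA, hX]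
  rw [Finset.mul_sum]
  have h1 : ∀ D ∈ (orcInv_finite τ hfix horb d).toFinset, (d : R) * w D
      = ∑ j ∈ Finset.range d, ∑ x ∈ orcFix τ hfix j,
          (if orcN τ (j + 1) x ≤ D then w D else 0) := by
    intro D hD
    rw [Set.Finite.mem_toFinset] at hD
    have hc := orc_double_count τ hfix horb hD
    have hc' : ((∑ j ∈ Finset.range d, ∑ x ∈ orcFix τ hfix j,
        (if orcN τ (j + 1) x ≤ D then 1 else 0 : ℕ) : ℕ) : R) = (d : R) := by
      rw [hc]
    rw [← hc']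
    push_cast
    rw [Finset.sum_mul]
    refine Finset.sum_congr rfl fun j _ => ?_
    rw [Finset.sum_mul]
    refine Finset.sum_congr rfl fun x _ => ?_
    split_ifs <;> simp
  rw [Finset.sum_congr rfl h1, Finset.sum_comm]
  refine Finset.sum_congr rfl fun j hj => ?_
  rw [Finset.sum_comm, Finset.sum_mul]
  refine Finset.sum_congr rfl fun x hx => ?_
  rw [mem_orcFix] at hx
  exact orc_sum_shift τ hfix horb w hw (Finset.mem_range.mp hj) hx

end Fermat.Agent.S27
end MergeWrap_S27_Zeta_OrbitRec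

section MergeWrap_S27_Zeta_Count -- from S27/Zeta/Count.lean

set_option autoImplicit false

/-!
# S27, part D, seat Z5b (COUNT): the Newton sequence of `L(χ, t)` is `ν_j(χ)`

(replaces the Euler product.)  For an invariant effective `D` of degree `d`:
`d = Σ_P D(P)`, so
  `d Lcoef χ d = Σ_D χ(D) Σ_P D(P) = Σ_P Σ_{i ≥ 1} Σ_{D : D(P) ≥ i} χ(D)`.
For `P` with orbit `O_P` of length `e`: `{D : D(P) ≥ i} = {D' + i O_P}`, `deg D' = d - i e`, and
`χ(D' + i O_P) = χ(D') χ(i O_P)`, `i O_P = nrmPl (i e) P`.  With `j = i e`: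
  `d Lcoef χ d = Σ_{j ≥ 1} Lcoef χ (d - j) Σ_{P : e(P) ∣ j} χ(nrmPl j P) = Σ_j ν_j(χ) Lcoef χ (d - j)`
because `σ^j P = P ⟺ e(P) ∣ j`.   (`cls` of an invariant divisor lies in `J₁` since `σ P₀ = P₀`;
`cls` is additive since `deg P₀ = 1`.)

The combinatorial identity is `orbit_recursion` (`Zeta/OrbitRec.lean`, Mathlib only); this file is
the bridge (helper29).
-/

noncomputable section

open AlgebraicCurve PowerSeries

namespace Fermat.Agent.S27

open Fermat.Agent.RR

variable {k F : Type*} [Field k] [Field F] [Algebra k F]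

namespace FrobStr

/-- the permutation of the places induced by `σ` -/
def placePerm (S : FrobStr k F) : Equiv.Perm (Place k F) := MulAction.toPerm S.σ

theorem placePerm_pow_apply (S : FrobStr k F) (j : ℕ) (P : Place k F) :
    (S.placePerm ^ j) P = (S.σ ^ j) • P := by
  unfold placePerm
  induction j generalizing P with
  | zero => simp
  | succ j ih =>
    rw [pow_succ, pow_succ, Equiv.Perm.mul_apply, mul_smul, ← ih]
    rfl

/-- the degree is the sum of the coefficients -/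
theorem degree_eq_sum (hRR : IsRRField k F) (D : Divisor k F) :
    Divisor.degree D = D.sum fun _ n => n := by
  unfold Divisor.degree
  rw [Finsupp.liftAddHom_apply]
  refine Finsupp.sum_congr fun v _ => ?_
  rw [AddMonoidHom.coe_mulRight, hRR.deg_one v, Nat.cast_one]
  exact mul_one _

theorem degree_sub_eq_zero (hRR : IsRRField k F) (S : FrobStr k F) (D : Divisor k F) :
    Divisor.degree (D - Divisor.degree D • Finsupp.single S.P₀ (1 : ℤ)) = 0 := by
  rw [map_sub, map_zsmul, Divisor.degree_single, hRR.deg_one S.P₀, Nat.cast_one, mul_one,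
    smul_eq_mul, mul_one, sub_self]

theorem cls_eq (hRR : IsRRField k F) (S : FrobStr k F) (D : Divisor k F) :
    S.cls D = Pic0.mk ⟨D - Divisor.degree D • Finsupp.single S.P₀ (1 : ℤ),
      degree_sub_eq_zero hRR S D⟩ := by
  unfold cls
  rw [dif_pos (degree_sub_eq_zero hRR S D)]

theorem cls_add (hRR : IsRRField k F) (S : FrobStr k F) (D E : Divisor k F) :
    S.cls (D + E) = S.cls D + S.cls E := by
  rw [cls_eq hRR, cls_eq hRR, cls_eq hRR, ← Pic0.mk_add]
  congr 1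
  apply Subtype.ext
  show D + E - Divisor.degree (D + E) • Finsupp.single S.P₀ (1 : ℤ) =
    (D - Divisor.degree D • Finsupp.single S.P₀ (1 : ℤ)) +
      (E - Divisor.degree E • Finsupp.single S.P₀ (1 : ℤ))
  rw [map_add, add_smul]
  abel

theorem cls_mem_fixedPow (hRR : IsRRField k F) (S : FrobStr k F) {D : Divisor k F}
    (hD : S.σ • D = D) : S.cls D ∈ fixedPow S.sigmaEnd 1 := by
  rw [mem_fixedPow, pow_one, sigmaEnd_apply, cls_eq hRR, SemilinearAut.pic0_smul_mk]
  congr 1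
  apply Subtype.ext
  rw [SemilinearAut.coe_degZeroSMulHom]
  show S.σ • (D - Divisor.degree D • Finsupp.single S.P₀ (1 : ℤ)) =
    D - Divisor.degree D • Finsupp.single S.P₀ (1 : ℤ)
  rw [smul_sub, hD, smul_comm, SemilinearAut.smul_single, S.fixed]

theorem chi_cls_add (hRR : IsRRField k F) (S : FrobStr k F) {χ : Pic0 k F → ℂ}
    (hχ : S.IsCharOn χ) {D E : Divisor k F} (hD : S.σ • D = D) (hE : S.σ • E = E) :
    χ (S.cls (D + E)) = χ (S.cls D) * χ (S.cls E) := by
  rw [cls_add hRR]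
  exact hχ.map_add _ (cls_mem_fixedPow hRR S hD) _ (cls_mem_fixedPow hRR S hE)

theorem effInv_eq (hRR : IsRRField k F) (S : FrobStr k F) (d : ℕ) :
    S.effInv d = {D : Place k F →₀ ℤ | 0 ≤ D ∧ (D.sum fun _ n => n) = (d : ℤ) ∧
      Finsupp.mapDomain S.placePerm D = D} := by
  ext D
  simp only [effInv, Set.mem_ofPred_eq, degree_eq_sum hRR]
  rfl

theorem fixPl_eq (S : FrobStr k F) (j : ℕ) :
    S.fixPl j = {x : Place k F | (S.placePerm ^ j) x = x} := by
  ext P
  simp only [fixPl, Set.mem_ofPred_eq, placePerm_pow_apply]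

theorem nrmPl_eq (S : FrobStr k F) (j : ℕ) (P : Place k F) :
    S.nrmPl j P = ∑ i ∈ Finset.range j, Finsupp.single ((S.placePerm ^ i) P) (1 : ℤ) := by
  unfold nrmPl
  refine Finset.sum_congr rfl fun i _ => ?_
  rw [placePerm_pow_apply]

theorem placePerm_finite (hRR : IsRRField k F) (S : FrobStr k F) (j : ℕ) (hj : 0 < j) :
    {x : Place k F | (S.placePerm ^ j) x = x}.Finite := by
  rw [← fixPl_eq]
  exact fixPl_finite hRR S j hj

theorem placePerm_orbit (hRR : IsRRField k F) (S : FrobStr k F) (x : Place k F) :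
    ∃ j : ℕ, 0 < j ∧ (S.placePerm ^ j) x = x := by
  obtain ⟨j, hj, hx⟩ := exists_mem_fixPl hRR S x
  rw [fixPl_eq] at hx
  exact ⟨j, hj, hx⟩

end FrobStr

/-- the number of elements of a finite set as a `finsum` -/
theorem finsum_mem_one_eq_card {α : Type*} (s : Set α) (hs : s.Finite) :
    ∑ᶠ x ∈ s, (1 : ℤ) = (Nat.card s : ℤ) := by
  rw [finsum_mem_eq_finite_toFinset_sum _ hs, Finset.sum_const, nsmul_eq_mul, mul_one,
    Nat.card_eq_card_finite_toFinset hs]

/-- **Seat Z5b (COUNT).** -/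
theorem isNewton_Lser (hRR : IsRRField k F) (S : FrobStr k F) (χ : Pic0 k F → ℂ)
    (hχ : S.IsCharOn χ) : IsNewton (S.Lser χ) (S.nu χ) := by
  rw [isNewton_iff]
  intro d
  have h := orbit_recursion (R := ℂ) S.placePerm (S.placePerm_finite hRR) (S.placePerm_orbit hRR)
    (fun D => χ (S.cls D))
    (fun D E _ _ hD hE => FrobStr.chi_cls_add hRR S hχ hD hE) d
  have hL : ∀ e : ℕ, coeff e (S.Lser χ) = ∑ᶠ D ∈ {D : Place k F →₀ ℤ | 0 ≤ D ∧
      (D.sum fun _ n => n) = (e : ℤ) ∧ Finsupp.mapDomain S.placePerm D = D}, χ (S.cls D) := by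
    intro e
    rw [FrobStr.Lser, coeff_mk, FrobStr.Lcoef, FrobStr.effInv_eq hRR]
  have hν : ∀ j : ℕ, S.nu χ j = ∑ᶠ x ∈ {x : Place k F | (S.placePerm ^ j) x = x},
      χ (S.cls (∑ i ∈ Finset.range j, Finsupp.single ((S.placePerm ^ i) x) (1 : ℤ))) := by
    intro j
    rw [FrobStr.nu, FrobStr.fixPl_eq]
    refine finsum_mem_congr rfl fun x _ => ?_
    rw [FrobStr.nrmPl_eq]
  rw [hL d, h]
  refine Finset.sum_congr rfl fun j _ => ?_
  rw [hL, hν]

/-- **Seat Z5b (COUNT)**, the case `χ = 1`: the Newton sequence of `Z` is `N_j`. -/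
theorem isNewton_zeta (hRR : IsRRField k F) (S : FrobStr k F) :
    IsNewton S.zeta (fun j => (S.Npl j : ℤ)) := by
  rw [isNewton_iff]
  intro d
  have h := orbit_recursion (R := ℤ) S.placePerm (S.placePerm_finite hRR) (S.placePerm_orbit hRR)
    (fun _ => (1 : ℤ)) (fun _ _ _ _ _ _ => (mul_one _).symm) d
  have hL : ∀ e : ℕ, coeff e S.zeta = ∑ᶠ D ∈ {D : Place k F →₀ ℤ | 0 ≤ D ∧
      (D.sum fun _ n => n) = (e : ℤ) ∧ Finsupp.mapDomain S.placePerm D = D}, (1 : ℤ) := by
    intro e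
    rw [FrobStr.zeta, coeff_mk, FrobStr.aCoef, ← FrobStr.effInv_eq hRR,
      finsum_mem_one_eq_card _ (effInv_finite hRR S e)]
  have hν : ∀ j : ℕ, (S.Npl (j + 1) : ℤ) =
      ∑ᶠ x ∈ {x : Place k F | (S.placePerm ^ (j + 1)) x = x}, (1 : ℤ) := by
    intro j
    rw [FrobStr.Npl, ← FrobStr.fixPl_eq,
      finsum_mem_one_eq_card _ (fixPl_finite hRR S (j + 1) (Nat.succ_pos j))]
  rw [hL d, h]
  refine Finset.sum_congr rfl fun j _ => ?_
  rw [hL, hν]

end Fermat.Agent.S27
end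
end MergeWrap_S27_Zeta_Count

section MergeWrap_S27_Zeta_Det -- from S27/Zeta/Det.lean

set_option autoImplicit false

/-!
# S27, part D, seat Z5c (DET): `#J_m = det (1 - A ^ m)`   (helper28)

`P` from `zeta_rational S`, `A` from `exists_matrix_charpolyRev P (2g)`: `det (1 - t A) = P`,
`det A = q^g`.  Newton sequences: `Z ↦ N_j` (seat Z5b), `1 - t ↦ -1`, `1 - q t ↦ -q^j`, so
`P ↦ N_j - 1 - q^j`, and `P = det (1 - t A) ↦ - tr (A^j)`: `tr (A^j) = 1 + q^j - N_j` for `j ≥ 1`.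
For `m ≥ 1`, `S' = S.pow m`: `N'_j = N_{m j}`, `q' = q^m`, `P'` from `zeta_rational S'` has Newton
sequence `N_{mj} - 1 - q^{mj} = - tr ((A^m)^j)`, the Newton sequence of `det (1 - t A^m)`.  By
`IsNewton.unique` (`ℤ`): `P' = det (1 - t A^m)`, and `#J_m = P'(1) = det (1 - A^m)`.
-/

noncomputable section

open AlgebraicCurve PowerSeries

namespace Fermat.Agent.S27

open Fermat.Agent.RR

variable {k F : Type*} [Field k] [Field F] [Algebra k F]

theorem FrobStr.fixPl_pow (S : FrobStr k F) (m : ℕ) (hm : 0 < m) (j : ℕ) :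
    (S.pow m hm).fixPl j = S.fixPl (m * j) := by
  ext P
  show ((S.σ ^ m) ^ j) • P = P ↔ (S.σ ^ (m * j)) • P = P
  rw [pow_mul]

theorem FrobStr.Npl_pow (S : FrobStr k F) (m : ℕ) (hm : 0 < m) (j : ℕ) :
    (S.pow m hm).Npl j = S.Npl (m * j) := by
  unfold FrobStr.Npl
  rw [S.fixPl_pow m hm j]

/-- two Newton sequences of the same power series with constant term `1` agree -/
theorem IsNewton.eq_of_same {R : Type*} [CommRing R] [IsDomain R] {Z : R⟦X⟧} {N N' : ℕ → R}
    (h : IsNewton Z N) (h' : IsNewton Z N') (h0 : constantCoeff Z = 1) (j : ℕ) (hj : 0 < j) :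
    N j = N' j := by
  unfold IsNewton at h h'
  have hZ : Z ≠ 0 := by
    intro hz
    rw [hz, map_zero] at h0
    exact zero_ne_one h0
  have e := mul_left_cancel₀ hZ (h.symm.trans h')
  have e2 := congrArg (coeff j) e
  rw [coeff_mk, coeff_mk, if_neg hj.ne', if_neg hj.ne'] at e2
  exact e2

/-- the Newton sequence of `(1 - t)(1 - q t) Z` -/
theorem isNewton_numerator (hRR : IsRRField k F) (S : FrobStr k F) :
    IsNewton ((1 - (X : ℤ⟦X⟧)) * (1 - C (S.q : ℤ) * X) * S.zeta)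
      (fun j => -1 + -(S.q : ℤ) ^ j + (S.Npl j : ℤ)) := by
  have h1 : IsNewton (1 - (X : ℤ⟦X⟧)) (fun j => -(1 : ℤ) ^ j) := by
    have := isNewton_one_sub (1 : ℤ)
    rwa [map_one, one_mul] at this
  have h2 := isNewton_one_sub (S.q : ℤ)
  have h3 := isNewton_zeta hRR S
  have h := (h1.mul h2).mul h3
  convert h using 2
  rw [one_pow]

theorem constantCoeff_charpolyRev {n : ℕ} (B : Matrix (Fin n) (Fin n) ℤ) :
    constantCoeff ((B.charpolyRev : Polynomial ℤ) : ℤ⟦X⟧) = 1 := by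
  rw [← coeff_zero_eq_constantCoeff_apply, Polynomial.coeff_coe, Polynomial.coeff_zero_eq_eval_zero,
    Matrix.eval_charpolyRev]

theorem eval_one_charpolyRev {n : ℕ} (B : Matrix (Fin n) (Fin n) ℤ) :
    (B.charpolyRev).eval 1 = (1 - B).det := by
  rw [Matrix.charpolyRev, ← Polynomial.coe_evalRingHom, RingHom.map_det]
  congr 1
  ext i j
  rcases eq_or_ne i j with hij | hij <;>
    simp [hij, Matrix.one_apply]

/-- **Seat Z5c (DET).** -/
theorem exists_matrix (hRR : IsRRField k F) (S : FrobStr k F) [IsAlgClosed k] :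
    ∃ A : Matrix (Fin (2 * genusFF k F)) (Fin (2 * genusFF k F)) ℤ,
      A.det = (S.q : ℤ) ^ genusFF k F ∧
      ∀ m : ℕ, 0 < m → (Nat.card (fixedPow S.sigmaEnd m) : ℤ) = (1 - A ^ m).det := by
  obtain ⟨P, hdeg, hP0, hlead, -, hP⟩ := zeta_rational hRR S
  obtain ⟨A, hA, hdet⟩ := exists_matrix_charpolyRev P (2 * genusFF k F) hdeg hP0
  refine ⟨A, ?_, ?_⟩
  · rw [hdet, hlead, pow_mul, neg_one_sq, one_pow, one_mul]
  -- traces of the powers of `A`
  have htr : ∀ j : ℕ, 0 < j → -(A ^ j).trace = -1 + -(S.q : ℤ) ^ j + (S.Npl j : ℤ) := by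
    intro j hj
    have h1 : IsNewton ((A.charpolyRev : Polynomial ℤ) : ℤ⟦X⟧) (fun j => -(A ^ j).trace) :=
      isNewton_charpolyRev A
    have h2 := isNewton_numerator hRR S
    rw [hP, ← hA] at h2
    exact IsNewton.eq_of_same h1 h2 (constantCoeff_charpolyRev A) j hj
  intro m hm
  obtain ⟨P', -, hP'0, -, hP'1, hP'⟩ := zeta_rational hRR (S.pow m hm)
  have h1 : IsNewton ((( A ^ m).charpolyRev : Polynomial ℤ) : ℤ⟦X⟧)
      (fun j => -((A ^ m) ^ j).trace) := isNewton_charpolyRev (A ^ m)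
  have h2 := isNewton_numerator hRR (S.pow m hm)
  rw [hP'] at h2
  have hc' : constantCoeff (P' : ℤ⟦X⟧) = 1 := by
    rw [← coeff_zero_eq_constantCoeff_apply, Polynomial.coeff_coe]
    exact hP'0
  have heq : (P' : ℤ⟦X⟧) = (((A ^ m).charpolyRev : Polynomial ℤ) : ℤ⟦X⟧) := by
    refine IsNewton.unique h2 h1 (fun j hj => ?_) hc' (constantCoeff_charpolyRev (A ^ m))
    show -1 + -((S.pow m hm).q : ℤ) ^ j + ((S.pow m hm).Npl j : ℤ) = -((A ^ m) ^ j).trace
    rw [S.pow_q m hm, S.Npl_pow m hm j, ← pow_mul, htr (m * j) (Nat.mul_pos hm hj)]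
    push_cast
    rw [← pow_mul]
  have heq' : P' = (A ^ m).charpolyRev := Polynomial.coe_injective ℤ heq
  have h3 : (Nat.card (fixedPow S.sigmaEnd m) : ℤ) = P'.eval 1 := by
    rw [hP'1, S.fixedPow_pow m hm 1, mul_one]
  rw [h3, heq', eval_one_charpolyRev]

end Fermat.Agent.S27
end
end MergeWrap_S27_Zeta_Det

section MergeWrap_S27_Zeta_Norm -- from S27/Zeta/Norm.lean

set_option autoImplicit false
set_option linter.style.haveILetI false
set_option linter.unusedSectionVars false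

/-!
# S27, part D, seat Z6 (NORM): the norm `J_ℓ → J₁` is surjective  (helper27)

`ν = 1 + σ + ⋯ + σ^{ℓ-1} : J_ℓ → J₁`.  If `ν J_ℓ ≠ J₁` there is a character `χ ≠ 1` of the finite
group `J₁` which is trivial on `ν J_ℓ` (`z6_exists_char`).
(1) for `ℓ ∣ j` and `σ^j P = P`: `cls (nrmPl j P) = ν y` with `y = Σ_{b < j/ℓ} σ^{ℓ b} (P - P₀) ∈ J_ℓ`
    (`z6_cls_nrmPl_mem`), so `ν_j(χ) = ν_j(1)`.
(2) `ζ` a primitive `ℓ`-th root of unity in `ℂ`, `M_χ(t) := Π_{i < ℓ} L(χ, ζ^i t)`: Newton sequence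
    `Σ_i ζ^{ij} ν_j(χ)` (`z6_isNewton_prod_rescale`), which is `0` for `ℓ ∤ j` and the same as for
    `M_1` for `ℓ ∣ j`; so `M_χ = M_1` (`IsNewton.unique`).
(3) `M_χ` has finitely many coefficients (`Lser_polynomial`).  `M_1` has not: its Newton sequence
    is real `≥ 0` and `≥ ℓ` at `j = ℓ` (`P₀` is fixed), so its coefficients in the degrees `ℓ d`
    are `> 0` (`z6_coeff_pos`).  Contradiction.
-/

noncomputable section

open AlgebraicCurve PowerSeries

namespace Fermat.Agent.S27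

open Fermat.Agent.RR

/-! ### abstract group theory -/

section Abstract

variable {J : Type*} [AddCommGroup J]

theorem z6_pow_succ_apply (σ : AddMonoid.End J) (u : ℕ) (y : J) :
    σ ((σ ^ u) y) = (σ ^ (u + 1)) y := by
  rw [pow_succ']
  rfl

theorem z6_normPow_apply (σ : AddMonoid.End J) (ℓ : ℕ) (y : J) :
    normPow σ 1 ℓ y = ∑ u ∈ Finset.range ℓ, (σ ^ u) y := by
  unfold normPow
  rw [pow_one]
  induction ℓ with
  | zero => simp
  | succ n ih =>
    rw [Finset.sum_range_succ, Finset.sum_range_succ, ← ih]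
    rfl

/-- the norm maps `J_ℓ` into `J₁`. -/
theorem z6_norm_mem (σ : AddMonoid.End J) (ℓ : ℕ) {y : J} (hy : y ∈ fixedPow σ ℓ) :
    normPow σ 1 ℓ y ∈ fixedPow σ 1 := by
  rw [mem_fixedPow, pow_one, z6_normPow_apply, map_sum]
  simp only [z6_pow_succ_apply]
  have h1 := Finset.sum_range_succ (fun u => (σ ^ u) y) ℓ
  have h2 := Finset.sum_range_succ' (fun u => (σ ^ u) y) ℓ
  rw [h1] at h2
  simp only [pow_zero] at h2
  rw [mem_fixedPow] at hy
  rw [hy] at h2
  have h3 : (1 : AddMonoid.End J) y = y := rfl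
  rw [h3] at h2
  exact (add_right_cancel h2).symm

/-- a character of a finite abelian group which is trivial on a subgroup and nontrivial at a given
element outside it. -/
theorem z6_exists_char (J₁ H : AddSubgroup J) (hH : H ≤ J₁) (hfin : (J₁ : Set J).Finite)
    {x₀ : J} (hx₀ : x₀ ∈ J₁) (hx₀H : x₀ ∉ H) :
    ∃ χ : J → ℂ, χ 0 = 1 ∧ (∀ x ∈ J₁, ∀ y ∈ J₁, χ (x + y) = χ x * χ y) ∧
      (∀ x ∈ H, χ x = 1) ∧ χ x₀ ≠ 1 := by
  classical
  haveI : Finite J₁ := hfin
  let G := J₁ ⧸ H.addSubgroupOf J₁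
  haveI : Finite G := inferInstance
  let a : G := QuotientAddGroup.mk ⟨x₀, hx₀⟩
  have ha : a ≠ 0 := by
    intro h
    rw [QuotientAddGroup.eq_zero_iff] at h
    exact hx₀H h
  have ha' : Multiplicative.ofAdd a ≠ 1 := fun h => ha (by simpa using h)
  haveI : NeZero (Monoid.exponent (Multiplicative G)) :=
    ⟨Monoid.exponent_ne_zero_of_finite⟩
  obtain ⟨φ, hφ⟩ := CommGroup.exists_apply_ne_one_of_hasEnoughRootsOfUnity
    (Multiplicative G) ℂ ha'
  refine ⟨fun x => if hx : x ∈ J₁ then ((φ (Multiplicative.ofAdd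
    (QuotientAddGroup.mk ⟨x, hx⟩ : G)) : ℂˣ) : ℂ) else 1, ?_, ?_, ?_, ?_⟩
  · simp only [dif_pos J₁.zero_mem]
    have : (QuotientAddGroup.mk (⟨0, J₁.zero_mem⟩ : J₁) : G) = 0 := rfl
    rw [this, ofAdd_zero, map_one, Units.val_one]
  · intro x hx y hy
    simp only [dif_pos hx, dif_pos hy, dif_pos (J₁.add_mem hx hy)]
    rw [← Units.val_mul, ← map_mul, ← ofAdd_add]
    rfl
  · intro x hx
    simp only [dif_pos (hH hx)]
    have : (QuotientAddGroup.mk (⟨x, hH hx⟩ : J₁) : G) = 0 := by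
      rw [QuotientAddGroup.eq_zero_iff]
      exact hx
    rw [this, ofAdd_zero, map_one, Units.val_one]
  · simp only [dif_pos hx₀]
    intro h
    apply hφ
    exact Units.ext h

end Abstract

/-! ### Newton sequences -/

section NewtonAux

variable {R : Type*} [CommRing R]

theorem z6_isNewton_congr {Z : R⟦X⟧} {N N' : ℕ → R} (h : IsNewton Z N)
    (hN : ∀ j, 0 < j → N j = N' j) : IsNewton Z N' := by
  unfold IsNewton at h ⊢
  rw [h]
  congr 1
  ext j
  simp only [coeff_mk]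
  split_ifs with hj
  · rfl
  · exact hN j (Nat.pos_of_ne_zero hj)

theorem z6_isNewton_one : IsNewton (1 : R⟦X⟧) (fun _ => 0) := by
  unfold IsNewton
  have h1 : (PowerSeries.mk fun j : ℕ => if j = 0 then (0 : R) else 0) = 0 := by
    ext j
    simp
  rw [h1, mul_zero]
  have h2 : PowerSeries.derivative R (1 : R⟦X⟧) = 0 := by
    have := (PowerSeries.derivative R).map_one_eq_zero
    exact this
  rw [h2, mul_zero]

/-- the Newton sequence of `∏_{i ∈ s} Z(c_i t)`. -/
theorem z6_isNewton_prod_rescale {Z : R⟦X⟧} {N : ℕ → R} (h : IsNewton Z N) {ι : Type*}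
    (s : Finset ι) (c : ι → R) :
    IsNewton (∏ i ∈ s, PowerSeries.rescale (c i) Z) (fun j => (∑ i ∈ s, c i ^ j) * N j) := by
  classical
  induction s using Finset.induction_on with
  | empty =>
    simp only [Finset.prod_empty, Finset.sum_empty, zero_mul]
    exact z6_isNewton_one
  | insert i s hi ih =>
    rw [Finset.prod_insert hi]
    have h1 := (h.rescale (c i)).mul ih
    refine z6_isNewton_congr h1 fun j _ => ?_
    rw [Finset.sum_insert hi]
    ring

end NewtonAux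

/-! ### roots of unity -/

theorem z6_sum_pow_of_dvd {ζ : ℂ} {ℓ : ℕ} (hζ : ζ ^ ℓ = 1) {j : ℕ} (hj : ℓ ∣ j) :
    ∑ i ∈ Finset.range ℓ, (ζ ^ i) ^ j = (ℓ : ℂ) := by
  obtain ⟨b, rfl⟩ := hj
  have : ∀ i ∈ Finset.range ℓ, (ζ ^ i) ^ (ℓ * b) = 1 := by
    intro i _
    rw [← pow_mul, mul_comm i, mul_assoc, pow_mul, hζ, one_pow]
  rw [Finset.sum_congr rfl this, Finset.sum_const, Finset.card_range, nsmul_eq_mul, mul_one]

theorem z6_sum_pow_of_not_dvd {ζ : ℂ} {ℓ : ℕ} (hζ : IsPrimitiveRoot ζ ℓ) {j : ℕ}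
    (hj : ¬ ℓ ∣ j) : ∑ i ∈ Finset.range ℓ, (ζ ^ i) ^ j = 0 := by
  have h1 : ζ ^ j ≠ 1 := fun h => hj ((hζ.pow_eq_one_iff_dvd j).mp h)
  have h2 : ∑ i ∈ Finset.range ℓ, (ζ ^ i) ^ j = ∑ i ∈ Finset.range ℓ, (ζ ^ j) ^ i := by
    refine Finset.sum_congr rfl fun i _ => ?_
    rw [← pow_mul, ← pow_mul, mul_comm]
  rw [h2]
  have h3 := geom_sum_mul (ζ ^ j) ℓ
  rw [← pow_mul, mul_comm j ℓ, pow_mul, hζ.pow_eq_one, one_pow, sub_self] at h3
  rcases mul_eq_zero.mp h3 with h | h
  · exact h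
  · exact absurd (sub_eq_zero.mp h) h1

/-! ### series with eventually vanishing coefficients -/

/-- the coefficients vanish from some degree on. -/
def Z6EvZero (f : ℂ⟦X⟧) : Prop := ∃ D : ℕ, ∀ d : ℕ, D ≤ d → coeff d f = 0

theorem z6EvZero_one : Z6EvZero 1 := by
  refine ⟨1, fun d hd => ?_⟩
  rw [coeff_one, if_neg (by omega)]

theorem z6EvZero_coe (P : Polynomial ℂ) : Z6EvZero (P : ℂ⟦X⟧) := by
  refine ⟨P.natDegree + 1, fun d hd => ?_⟩
  rw [Polynomial.coeff_coe]
  exact Polynomial.coeff_eq_zero_of_natDegree_lt (by omega)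

theorem Z6EvZero.rescale {f : ℂ⟦X⟧} (h : Z6EvZero f) (c : ℂ) :
    Z6EvZero (PowerSeries.rescale c f) := by
  obtain ⟨D, hD⟩ := h
  refine ⟨D, fun d hd => ?_⟩
  rw [coeff_rescale, hD d hd, mul_zero]

theorem Z6EvZero.mul {f g : ℂ⟦X⟧} (hf : Z6EvZero f) (hg : Z6EvZero g) : Z6EvZero (f * g) := by
  obtain ⟨D, hD⟩ := hf
  obtain ⟨E, hE⟩ := hg
  refine ⟨D + E, fun d hd => ?_⟩
  rw [coeff_mul]
  refine Finset.sum_eq_zero fun x hx => ?_
  have hx' : x.1 + x.2 = d := Finset.HasAntidiagonal.mem_antidiagonal.mp hx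
  by_cases h1 : D ≤ x.1
  · rw [hD _ h1, zero_mul]
  · rw [hE _ (by omega), mul_zero]

theorem z6EvZero_prod {ι : Type*} (s : Finset ι) (f : ι → ℂ⟦X⟧) (h : ∀ i ∈ s, Z6EvZero (f i)) :
    Z6EvZero (∏ i ∈ s, f i) := by
  classical
  induction s using Finset.induction_on with
  | empty => simpa using z6EvZero_one
  | insert i s hi ih =>
    rw [Finset.prod_insert hi]
    exact (h i (Finset.mem_insert_self i s)).mul
      (ih fun j hj => h j (Finset.mem_insert_of_mem hj))

/-! ### positivity -/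

/-- a series with constant term `1` whose Newton sequence is real `≥ 0` and positive at `ℓ`
has positive coefficients in all degrees `ℓ d`. -/
theorem z6_coeff_pos {Z : ℂ⟦X⟧} {N : ℕ → ℂ} (h : IsNewton Z N) (h0 : constantCoeff Z = 1)
    (r : ℕ → ℝ) (hr : ∀ j, 0 < j → N j = (r j : ℂ)) (hr0 : ∀ j, 0 < j → 0 ≤ r j)
    {ℓ : ℕ} (hℓ : 0 < ℓ) (hrℓ : 0 < r ℓ) :
    ∀ d : ℕ, ∃ a : ℝ, 0 < a ∧ coeff (ℓ * d) Z = (a : ℂ) := by
  have hiff := isNewton_iff.mp h
  -- all coefficients are real and nonnegative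
  have hnn : ∀ d : ℕ, ∃ a : ℝ, 0 ≤ a ∧ coeff d Z = (a : ℂ) := by
    intro d
    induction d using Nat.strong_induction_on with
    | _ d ih =>
      rcases Nat.eq_zero_or_pos d with rfl | hd
      · refine ⟨1, zero_le_one, ?_⟩
        rw [coeff_zero_eq_constantCoeff_apply, h0, Complex.ofReal_one]
      · choose! a ha using fun e (he : e < d) => ih e he
        refine ⟨(∑ j ∈ Finset.range d, r (j + 1) * a (d - 1 - j)) / d, ?_, ?_⟩
        · apply div_nonneg _ (Nat.cast_nonneg d)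
          refine Finset.sum_nonneg fun j hj => ?_
          rw [Finset.mem_range] at hj
          exact mul_nonneg (hr0 _ (Nat.succ_pos j)) (ha _ (by omega)).1
        · have h1 := hiff d
          have hd0 : (d : ℂ) ≠ 0 := by exact_mod_cast hd.ne'
          rw [Complex.ofReal_div, Complex.ofReal_natCast, eq_div_iff hd0, mul_comm, h1,
            Complex.ofReal_sum]
          refine Finset.sum_congr rfl fun j hj => ?_
          rw [Finset.mem_range] at hj
          rw [Complex.ofReal_mul, hr _ (Nat.succ_pos j), (ha _ (by omega)).2]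
  choose a ha using hnn
  intro d
  induction d with
  | zero =>
    refine ⟨1, zero_lt_one, ?_⟩
    rw [mul_zero, coeff_zero_eq_constantCoeff_apply, h0, Complex.ofReal_one]
  | succ d ih =>
    obtain ⟨b, hb, hbd⟩ := ih
    refine ⟨a (ℓ * (d + 1)), ?_, (ha _).2⟩
    have hpos : 0 < ℓ * (d + 1) := Nat.mul_pos hℓ (Nat.succ_pos d)
    have h1 := hiff (ℓ * (d + 1))
    have h2 : ((ℓ * (d + 1) : ℕ) : ℝ) * a (ℓ * (d + 1)) =
        ∑ j ∈ Finset.range (ℓ * (d + 1)), r (j + 1) * a (ℓ * (d + 1) - 1 - j) := by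
      have h3 : (((ℓ * (d + 1) : ℕ) : ℝ) * a (ℓ * (d + 1)) : ℂ) =
          ((∑ j ∈ Finset.range (ℓ * (d + 1)), r (j + 1) * a (ℓ * (d + 1) - 1 - j) : ℝ) : ℂ) := by
        rw [Complex.ofReal_sum]
        rw [Complex.ofReal_natCast, ← (ha _).2, h1]
        refine Finset.sum_congr rfl fun j _ => ?_
        rw [Complex.ofReal_mul, hr _ (Nat.succ_pos j), (ha _).2]
      exact_mod_cast h3
    have hmem : ℓ - 1 ∈ Finset.range (ℓ * (d + 1)) := by
      rw [Finset.mem_range]
      have : ℓ ≤ ℓ * (d + 1) := Nat.le_mul_of_pos_right ℓ (Nat.succ_pos d)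
      omega
    have h4 : r ℓ * a (ℓ * d) ≤
        ∑ j ∈ Finset.range (ℓ * (d + 1)), r (j + 1) * a (ℓ * (d + 1) - 1 - j) := by
      have h5 := Finset.single_le_sum (f := fun j => r (j + 1) * a (ℓ * (d + 1) - 1 - j))
        (fun j _ => mul_nonneg (hr0 _ (Nat.succ_pos j)) (ha _).1) hmem
      have e1 : ℓ - 1 + 1 = ℓ := by omega
      have e2 : ℓ * (d + 1) - 1 - (ℓ - 1) = ℓ * d := by
        rw [Nat.mul_succ]
        omega
      simp only [e1, e2] at h5
      exact h5
    have hb' : a (ℓ * d) = b := by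
      have := (ha (ℓ * d)).2
      rw [hbd] at this
      exact_mod_cast this.symm
    have h6 : 0 < r ℓ * a (ℓ * d) := by
      rw [hb']
      exact mul_pos hrℓ hb
    have h7 : 0 < ((ℓ * (d + 1) : ℕ) : ℝ) * a (ℓ * (d + 1)) := by
      rw [h2]
      exact lt_of_lt_of_le h6 h4
    have h8 : (0 : ℝ) < ((ℓ * (d + 1) : ℕ) : ℝ) := by exact_mod_cast hpos
    exact (mul_pos_iff_of_pos_left h8).mp h7

/-- such a series is not eventually zero. -/
theorem z6_not_evZero {Z : ℂ⟦X⟧} {N : ℕ → ℂ} (h : IsNewton Z N) (h0 : constantCoeff Z = 1)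
    (r : ℕ → ℝ) (hr : ∀ j, 0 < j → N j = (r j : ℂ)) (hr0 : ∀ j, 0 < j → 0 ≤ r j)
    {ℓ : ℕ} (hℓ : 0 < ℓ) (hrℓ : 0 < r ℓ) : ¬ Z6EvZero Z := by
  rintro ⟨D, hD⟩
  obtain ⟨a, ha, had⟩ := z6_coeff_pos h h0 r hr hr0 hℓ hrℓ D
  have h1 : D ≤ ℓ * D := Nat.le_mul_of_pos_left D hℓ
  rw [hD _ h1] at had
  have : a = 0 := by exact_mod_cast had.symm
  exact ha.ne' this

section Abstract2

variable {J : Type*} [AddCommGroup J]

theorem z6_pow_add_apply (σ : AddMonoid.End J) (a b : ℕ) (y : J) :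
    (σ ^ (a + b)) y = (σ ^ a) ((σ ^ b) y) := by
  rw [pow_add]
  rfl

/-- `Σ_{i < ℓ b} σ^i z = ν (Σ_{c < b} σ^{ℓ c} z)`. -/
theorem z6_sum_eq_norm (σ : AddMonoid.End J) (ℓ b : ℕ) (z : J) :
    ∑ i ∈ Finset.range (ℓ * b), (σ ^ i) z =
      normPow σ 1 ℓ (∑ c ∈ Finset.range b, (σ ^ (ℓ * c)) z) := by
  induction b with
  | zero => simp
  | succ b ih =>
    rw [Nat.mul_succ, Finset.sum_range_add, ih, Finset.sum_range_succ, map_add]
    congr 1
    rw [z6_normPow_apply]
    refine Finset.sum_congr rfl fun u _ => ?_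
    rw [add_comm, z6_pow_add_apply]

/-- `Σ_{c < b} σ^{ℓ c} z` is fixed by `σ^ℓ` if `σ^{ℓ b} z = z`. -/
theorem z6_sum_mem_fixed (σ : AddMonoid.End J) (ℓ b : ℕ) (z : J) (hz : (σ ^ (ℓ * b)) z = z) :
    ∑ c ∈ Finset.range b, (σ ^ (ℓ * c)) z ∈ fixedPow σ ℓ := by
  rw [mem_fixedPow, map_sum]
  have h0 : ∀ c, (σ ^ ℓ) ((σ ^ (ℓ * c)) z) = (σ ^ (ℓ * (c + 1))) z := by
    intro c
    rw [← z6_pow_add_apply, Nat.mul_succ, add_comm]
  simp only [h0]
  have h1 := Finset.sum_range_succ (fun c => (σ ^ (ℓ * c)) z) b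
  have h2 := Finset.sum_range_succ' (fun c => (σ ^ (ℓ * c)) z) b
  rw [h1] at h2
  simp only [mul_zero, pow_zero] at h2
  rw [hz] at h2
  have h3 : (1 : AddMonoid.End J) z = z := rfl
  rw [h3] at h2
  exact (add_right_cancel h2).symm

end Abstract2

/-! ### classes of divisors -/

section Cls

variable {k F : Type*} [Field k] [Field F] [Algebra k F]

theorem z6_degree_sub (hRR : IsRRField k F) (S : FrobStr k F) (D : Divisor k F) :
    Divisor.degree (D - Divisor.degree D • Finsupp.single S.P₀ (1 : ℤ)) = 0 := by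
  rw [map_sub, map_zsmul, Divisor.degree_single, hRR.deg_one]
  simp

theorem z6_cls_eq (hRR : IsRRField k F) (S : FrobStr k F) (D : Divisor k F) :
    S.cls D = Pic0.mk ⟨D - Divisor.degree D • Finsupp.single S.P₀ (1 : ℤ),
      z6_degree_sub hRR S D⟩ := by
  unfold FrobStr.cls
  rw [dif_pos (z6_degree_sub hRR S D)]

theorem z6_cls_zero (hRR : IsRRField k F) (S : FrobStr k F) : S.cls 0 = 0 := by
  rw [z6_cls_eq hRR]
  have : (⟨(0 : Divisor k F) - Divisor.degree (0 : Divisor k F) • Finsupp.single S.P₀ (1 : ℤ),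
      z6_degree_sub hRR S 0⟩ : Divisor.degZero (K := k) (F := F)) = 0 := by
    apply Subtype.ext
    simp
  rw [this]
  rfl

theorem z6_cls_add (hRR : IsRRField k F) (S : FrobStr k F) (D E : Divisor k F) :
    S.cls (D + E) = S.cls D + S.cls E := by
  rw [z6_cls_eq hRR, z6_cls_eq hRR, z6_cls_eq hRR, ← Pic0.mk_add]
  congr 1
  apply Subtype.ext
  show D + E - Divisor.degree (D + E) • Finsupp.single S.P₀ (1 : ℤ) =
    (D - Divisor.degree D • Finsupp.single S.P₀ (1 : ℤ)) +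
      (E - Divisor.degree E • Finsupp.single S.P₀ (1 : ℤ))
  rw [map_add, add_smul]
  abel

theorem z6_cls_sum (hRR : IsRRField k F) (S : FrobStr k F) {ι : Type*} (s : Finset ι)
    (f : ι → Divisor k F) : S.cls (∑ i ∈ s, f i) = ∑ i ∈ s, S.cls (f i) := by
  classical
  induction s using Finset.induction_on with
  | empty => simpa using z6_cls_zero hRR S
  | insert i s hi ih => rw [Finset.sum_insert hi, Finset.sum_insert hi, z6_cls_add hRR, ih]

theorem z6_smul_cls (hRR : IsRRField k F) (S : FrobStr k F) (m : ℕ) (D : Divisor k F) :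
    (S.σ ^ m) • S.cls D = S.cls ((S.σ ^ m) • D) := by
  rw [z6_cls_eq hRR, z6_cls_eq hRR, SemilinearAut.pic0_smul_mk]
  congr 1
  apply Subtype.ext
  rw [SemilinearAut.coe_degZeroSMulHom]
  show (S.σ ^ m) • (D - Divisor.degree D • Finsupp.single S.P₀ (1 : ℤ)) =
    (S.σ ^ m) • D - Divisor.degree ((S.σ ^ m) • D) • Finsupp.single S.P₀ (1 : ℤ)
  rw [smul_sub, SemilinearAut.degree_smul]
  congr 1
  have h := map_zsmul (DistribSMul.toAddMonoidHom (Divisor k F) (S.σ ^ m))
    (Divisor.degree D) (Finsupp.single S.P₀ (1 : ℤ))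
  have h2 : (S.σ ^ m) • (Divisor.degree D • Finsupp.single S.P₀ (1 : ℤ) : Divisor k F) =
      Divisor.degree D • ((S.σ ^ m) • (Finsupp.single S.P₀ (1 : ℤ) : Divisor k F)) := h
  rw [h2, SemilinearAut.smul_single, S.pow_smul_P₀]

/-- the class of the norm divisor of a place fixed by `σ^j`. -/
theorem z6_cls_nrmPl (hRR : IsRRField k F) (S : FrobStr k F) (j : ℕ) (P : Place k F) :
    S.cls (S.nrmPl j P) =
      ∑ i ∈ Finset.range j, (S.sigmaEnd ^ i) (S.cls (Finsupp.single P (1 : ℤ))) := by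
  unfold FrobStr.nrmPl
  rw [z6_cls_sum hRR]
  refine Finset.sum_congr rfl fun i _ => ?_
  rw [S.sigmaEnd_pow_apply, z6_smul_cls hRR, SemilinearAut.smul_single]

/-- for `ℓ ∣ j` and `σ^j P = P` the class of the norm divisor is a norm from `J_ℓ`. -/
theorem z6_cls_nrmPl_mem (hRR : IsRRField k F) (S : FrobStr k F) {ℓ j : ℕ} (hj : ℓ ∣ j)
    {P : Place k F} (hP : P ∈ S.fixPl j) :
    ∃ y ∈ fixedPow S.sigmaEnd ℓ, normPow S.sigmaEnd 1 ℓ y = S.cls (S.nrmPl j P) := by
  obtain ⟨b, rfl⟩ := hj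
  set z := S.cls (Finsupp.single P (1 : ℤ)) with hz
  have hfix : (S.sigmaEnd ^ (ℓ * b)) z = z := by
    rw [S.sigmaEnd_pow_apply, hz, z6_smul_cls hRR, SemilinearAut.smul_single]
    have : (S.σ ^ (ℓ * b)) • P = P := hP
    rw [this]
  refine ⟨∑ c ∈ Finset.range b, (S.sigmaEnd ^ (ℓ * c)) z,
    z6_sum_mem_fixed S.sigmaEnd ℓ b z hfix, ?_⟩
  rw [z6_cls_nrmPl hRR, ← z6_sum_eq_norm]

/-- the only invariant effective divisor of degree `0` is `0`. -/
theorem z6_effInv_zero (hRR : IsRRField k F) (S : FrobStr k F) : S.effInv 0 = {0} := by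
  ext D
  constructor
  · rintro ⟨h1, h2, -⟩
    rw [Set.mem_singleton_iff]
    exact Fermat.Agent.RR.eq_zero_of_nonneg_of_degree_eq_zero hRR h1 (by simpa using h2)
  · intro h
    rw [Set.mem_singleton_iff] at h
    subst h
    exact ⟨le_refl _, by simp, smul_zero _⟩

theorem z6_constantCoeff_Lser (hRR : IsRRField k F) (S : FrobStr k F) (χ : Pic0 k F → ℂ)
    (hχ : χ 0 = 1) : constantCoeff (S.Lser χ) = 1 := by
  rw [← coeff_zero_eq_constantCoeff_apply]
  unfold FrobStr.Lser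
  rw [coeff_mk]
  unfold FrobStr.Lcoef
  rw [z6_effInv_zero hRR, finsum_mem_singleton, z6_cls_zero hRR, hχ]

end Cls

/-! ### the theorem -/

section Main

variable {k F : Type*} [Field k] [Field F] [Algebra k F]

/-- `ν_j` of the trivial character is `N_j`. -/
theorem z6_nu_one (hRR : IsRRField k F) (S : FrobStr k F) (j : ℕ) (hj : 0 < j) :
    S.nu (fun _ => (1 : ℂ)) j = ((S.Npl j : ℝ) : ℂ) := by
  unfold FrobStr.nu FrobStr.Npl
  have hfin := fixPl_finite hRR S j hj
  rw [finsum_mem_eq_finite_toFinset_sum _ hfin, Finset.sum_const, nsmul_eq_mul, mul_one,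
    Nat.card_coe_set_eq, Set.ncard_eq_toFinset_card _ hfin]
  norm_cast

theorem z6_one_le_Npl (hRR : IsRRField k F) (S : FrobStr k F) (j : ℕ) (hj : 0 < j) :
    1 ≤ S.Npl j := by
  unfold FrobStr.Npl
  have hfin := fixPl_finite hRR S j hj
  haveI : Finite (S.fixPl j) := hfin
  haveI : Nonempty (S.fixPl j) := ⟨⟨S.P₀, S.pow_smul_P₀ j⟩⟩
  exact Nat.card_pos

/-- **Seat Z6 (NORM).** -/
theorem norm_surj_one (hRR : IsRRField k F) (S : FrobStr k F) [IsAlgClosed k] (ℓ : ℕ)
    (hℓ : 0 < ℓ) :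
    ∀ x ∈ fixedPow S.sigmaEnd 1, ∃ y ∈ fixedPow S.sigmaEnd ℓ, normPow S.sigmaEnd 1 ℓ y = x := by
  intro x₀ hx₀
  by_contra hcon
  -- the subgroup of norms
  set H : AddSubgroup (Pic0 k F) :=
    (fixedPow S.sigmaEnd ℓ).map (normPow S.sigmaEnd 1 ℓ) with hH
  have hHle : H ≤ fixedPow S.sigmaEnd 1 := by
    rintro _ ⟨y, hy, rfl⟩
    exact z6_norm_mem S.sigmaEnd ℓ hy
  have hx₀H : x₀ ∉ H := by
    rintro ⟨y, hy, hyx⟩
    exact hcon ⟨y, hy, hyx⟩
  obtain ⟨χ, hχ0, hχadd, hχH, hχx₀⟩ :=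
    z6_exists_char (fixedPow S.sigmaEnd 1) H hHle (finite_fixed_one hRR S) hx₀ hx₀H
  have hχ : S.IsCharOn χ := ⟨hχ0, hχadd⟩
  have hχ₁ : S.IsCharOn (fun _ => (1 : ℂ)) := ⟨rfl, fun _ _ _ _ => (one_mul 1).symm⟩
  -- the root of unity
  obtain ⟨ζ, hζ⟩ : ∃ ζ : ℂ, IsPrimitiveRoot ζ ℓ := ⟨_, Complex.isPrimitiveRoot_exp ℓ hℓ.ne'⟩
  -- the two products
  have hM := z6_isNewton_prod_rescale (isNewton_Lser hRR S χ hχ) (Finset.range ℓ)
    (fun i => ζ ^ i)
  have hM₁ := z6_isNewton_prod_rescale (isNewton_Lser hRR S (fun _ => (1 : ℂ)) hχ₁)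
    (Finset.range ℓ) (fun i => ζ ^ i)
  -- (1) the Newton sequences agree
  have hnu : ∀ j, 0 < j → ℓ ∣ j → S.nu χ j = S.nu (fun _ => (1 : ℂ)) j := by
    intro j _ hjℓ
    unfold FrobStr.nu
    refine finsum_mem_congr rfl fun P hP => ?_
    obtain ⟨y, hy, hyP⟩ := z6_cls_nrmPl_mem hRR S hjℓ hP
    rw [← hyP]
    exact hχH _ ⟨y, hy, rfl⟩
  have hseq : ∀ j, 0 < j →
      (∑ i ∈ Finset.range ℓ, (ζ ^ i) ^ j) * S.nu χ j =
        (∑ i ∈ Finset.range ℓ, (ζ ^ i) ^ j) * S.nu (fun _ => (1 : ℂ)) j := by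
    intro j hj
    by_cases hjℓ : ℓ ∣ j
    · rw [hnu j hj hjℓ]
    · rw [z6_sum_pow_of_not_dvd hζ hjℓ, zero_mul, zero_mul]
  -- constant coefficients
  have hc : ∀ ψ : Pic0 k F → ℂ, ψ 0 = 1 →
      constantCoeff (∏ i ∈ Finset.range ℓ, PowerSeries.rescale (ζ ^ i) (S.Lser ψ)) = 1 := by
    intro ψ hψ
    rw [map_prod]
    refine Finset.prod_eq_one fun i _ => ?_
    rw [← coeff_zero_eq_constantCoeff_apply, coeff_rescale, pow_zero, one_mul,
      coeff_zero_eq_constantCoeff_apply, z6_constantCoeff_Lser hRR S ψ hψ]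
  -- (2) the products are equal
  have heq := IsNewton.unique hM hM₁ hseq (hc χ hχ0) (hc _ rfl)
  -- (3) contradiction
  obtain ⟨P, hP⟩ := Lser_polynomial hRR S χ hχ ⟨x₀, hx₀, hχx₀⟩
  have hev : Z6EvZero (∏ i ∈ Finset.range ℓ, PowerSeries.rescale (ζ ^ i) (S.Lser χ)) := by
    apply z6EvZero_prod
    intro i _
    rw [hP]
    exact (z6EvZero_coe P).rescale _
  rw [heq] at hev
  refine z6_not_evZero hM₁ (hc _ rfl)
    (fun j => (if ℓ ∣ j then (ℓ : ℝ) else 0) * (S.Npl j : ℝ)) ?_ ?_ hℓ ?_ hev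
  · intro j hj
    rw [z6_nu_one hRR S j hj]
    by_cases hjℓ : ℓ ∣ j
    · rw [z6_sum_pow_of_dvd hζ.pow_eq_one hjℓ, if_pos hjℓ]
      push_cast
      rfl
    · rw [z6_sum_pow_of_not_dvd hζ hjℓ, if_neg hjℓ]
      push_cast
      ring
  · intro j _
    apply mul_nonneg
    · split_ifs
      · exact Nat.cast_nonneg ℓ
      · exact le_refl _
    · exact Nat.cast_nonneg _
  · rw [if_pos (dvd_refl ℓ)]
    apply mul_pos
    · exact_mod_cast hℓ
    · have := z6_one_le_Npl hRR S ℓ hℓ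
      exact_mod_cast this

end Main

end Fermat.Agent.S27
end
end MergeWrap_S27_Zeta_Norm

section MergeWrap_S27_Growth -- from S27/Growth.lean

set_option autoImplicit false

/-!
# S27, block D7 (helper20): growth of `det (1 - A ^ n)` along `n ↦ n ℓ`

`A` an integer `d × d` matrix with `ℓ ∤ det A`.  There is `n₀ > 0` with `A ^ n₀ ≡ 1 mod ℓ²`, and for
every multiple `n` of `n₀`:  `det (1 - A ^ (n ℓ)) = det (1 - A ^ n) * ℓ ^ d * u` with `ℓ ∤ u`.
Hence, if `h m = |det (1 - A ^ m)| ≠ 0`:  `v_ℓ (h (n ℓ)) = v_ℓ (h n) + d`.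
-/

namespace Fermat.Agent.S27

open Matrix Finset

variable {d : ℕ}

/-- congruence modulo `ℓ ^ 2` of integer matrices, entrywise. -/
def MatCong (ℓ : ℕ) (B : Matrix (Fin d) (Fin d) ℤ) : Prop :=
  ∃ C : Matrix (Fin d) (Fin d) ℤ, B = 1 + ((ℓ : ℤ) ^ 2) • C

theorem MatCong.one (ℓ : ℕ) : MatCong ℓ (1 : Matrix (Fin d) (Fin d) ℤ) :=
  ⟨0, by simp⟩

theorem MatCong.mul {ℓ : ℕ} {B B' : Matrix (Fin d) (Fin d) ℤ} (h : MatCong ℓ B)
    (h' : MatCong ℓ B') : MatCong ℓ (B * B') := by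
  obtain ⟨C, rfl⟩ := h
  obtain ⟨C', rfl⟩ := h'
  refine ⟨C + C' + ((ℓ : ℤ) ^ 2) • (C * C'), ?_⟩
  simp only [add_mul, mul_add, one_mul, mul_one, smul_mul_assoc, mul_smul_comm, smul_add,
    smul_smul]
  abel

theorem MatCong.pow {ℓ : ℕ} {B : Matrix (Fin d) (Fin d) ℤ} (h : MatCong ℓ B) (i : ℕ) :
    MatCong ℓ (B ^ i) := by
  induction i with
  | zero => rw [pow_zero]; exact MatCong.one ℓ
  | succ i ih => rw [pow_succ]; exact ih.mul h

/-- a matrix whose reduction modulo `ℓ ^ 2` is `1`. -/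
theorem matCong_of_map_eq_one {ℓ : ℕ} {B : Matrix (Fin d) (Fin d) ℤ}
    (h : B.map (Int.castRingHom (ZMod (ℓ ^ 2))) = 1) : MatCong ℓ B := by
  have hent : ∀ i j, ((ℓ : ℤ) ^ 2) ∣ (B - 1) i j := by
    intro i j
    have h1 := congrFun (congrFun h i) j
    rw [Matrix.map_apply] at h1
    have h2 : ((((B - 1) i j : ℤ)) : ZMod (ℓ ^ 2)) = 0 := by
      rw [Matrix.sub_apply, Int.cast_sub]
      have h3 : (Int.castRingHom (ZMod (ℓ ^ 2))) (B i j) = ((B i j : ℤ) : ZMod (ℓ ^ 2)) := rfl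
      rw [← h3, h1]
      by_cases hij : i = j
      · subst hij
        simp
      · simp [Matrix.one_apply_ne hij]
    have h4 := (ZMod.intCast_zmod_eq_zero_iff_dvd _ _).mp h2
    exact_mod_cast h4
  choose C hC using hent
  refine ⟨Matrix.of C, ?_⟩
  ext i j
  have := hC i j
  rw [Matrix.sub_apply] at this
  rw [Matrix.add_apply, Matrix.smul_apply, Matrix.of_apply, smul_eq_mul, ← this]
  ring

/-- some positive power of `A` is congruent to `1` modulo `ℓ ^ 2`. -/
theorem exists_pow_matCong (A : Matrix (Fin d) (Fin d) ℤ) (ℓ : ℕ) [hℓ : Fact ℓ.Prime]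
    (hdet : ¬ (ℓ : ℤ) ∣ A.det) : ∃ n₀ : ℕ, 0 < n₀ ∧ MatCong ℓ (A ^ n₀) := by
  have : NeZero (ℓ ^ 2) := ⟨pow_ne_zero 2 hℓ.out.ne_zero⟩
  set φ := Int.castRingHom (ZMod (ℓ ^ 2)) with hφ
  set Ab : Matrix (Fin d) (Fin d) (ZMod (ℓ ^ 2)) := A.map φ with hAb
  have hdetb : IsUnit Ab.det := by
    have h1 : Ab.det = φ A.det := by
      rw [hAb]
      exact (RingHom.map_det φ A).symm
    rw [h1]
    have hcop : IsCoprime A.det ((ℓ ^ 2 : ℕ) : ℤ) := by
      push_cast
      refine IsCoprime.pow_right ?_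
      rw [Int.isCoprime_iff_gcd_eq_one]
      have hp : Prime (ℓ : ℤ) := Nat.prime_iff_prime_int.mp hℓ.out
      have := (Int.isCoprime_iff_gcd_eq_one).mp
        ((Prime.coprime_iff_not_dvd hp).mpr hdet).symm
      exact this
    have h2 : IsUnit ((A.det : ℤ) : ZMod (ℓ ^ 2)) := by
      obtain ⟨u, v, huv⟩ := hcop
      have h3 := congrArg (fun z : ℤ => (z : ZMod (ℓ ^ 2))) huv
      simp only [Int.cast_add, Int.cast_mul, Int.cast_natCast, ZMod.natCast_self, mul_zero,
        add_zero, Int.cast_one] at h3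
      exact IsUnit.of_mul_eq_one_right _ h3
    exact h2
  have hAbu : IsUnit Ab := (Matrix.isUnit_iff_isUnit_det Ab).mpr hdetb
  obtain ⟨u, hu⟩ := hAbu
  have hfin : IsOfFinOrder u := isOfFinOrder_of_finite u
  obtain ⟨n₀, hn₀, hpow⟩ := hfin.exists_pow_eq_one
  refine ⟨n₀, hn₀, matCong_of_map_eq_one ?_⟩
  have h1 : (A ^ n₀).map φ = Ab ^ n₀ := by
    rw [hAb]
    exact map_pow φ.mapMatrix A n₀
  rw [h1, ← hu, ← Units.val_pow_eq_pow_val, hpow, Units.val_one]

/-- `1 + B + ⋯ + B ^ (ℓ - 1) = ℓ (1 + ℓ M)` for `B ≡ 1 mod ℓ ^ 2`. -/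
theorem geom_sum_of_matCong {ℓ : ℕ} {B : Matrix (Fin d) (Fin d) ℤ} (h : MatCong ℓ B) :
    ∃ M : Matrix (Fin d) (Fin d) ℤ, ∑ i ∈ range ℓ, B ^ i = (ℓ : ℤ) • (1 + (ℓ : ℤ) • M) := by
  have hC : ∀ i : ℕ, ∃ C : Matrix (Fin d) (Fin d) ℤ, B ^ i = 1 + ((ℓ : ℤ) ^ 2) • C :=
    fun i => h.pow i
  choose C hC using hC
  refine ⟨∑ i ∈ range ℓ, C i, ?_⟩
  have h1 : ∑ i ∈ range ℓ, B ^ i = ∑ i ∈ range ℓ, (1 + ((ℓ : ℤ) ^ 2) • C i) :=
    Finset.sum_congr rfl fun i _ => hC i
  rw [h1, Finset.sum_add_distrib, Finset.sum_const, Finset.card_range, ← Finset.smul_sum,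
    smul_add, smul_smul]
  rw [← Nat.cast_smul_eq_nsmul ℤ, pow_two]

/-- `det (1 + ℓ M)` is prime to `ℓ`. -/
theorem not_dvd_det_one_add (ℓ : ℕ) [hℓ : Fact ℓ.Prime] (M : Matrix (Fin d) (Fin d) ℤ) :
    ¬ (ℓ : ℤ) ∣ (1 + (ℓ : ℤ) • M).det := by
  intro hdvd
  set φ := Int.castRingHom (ZMod ℓ) with hφ
  have h1 : φ (1 + (ℓ : ℤ) • M).det = 0 := by
    rw [hφ, eq_intCast]
    exact (ZMod.intCast_zmod_eq_zero_iff_dvd _ _).mpr hdvd
  rw [RingHom.map_det] at h1
  have h2 : (φ.mapMatrix (1 + (ℓ : ℤ) • M)) = 1 := by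
    ext i j
    simp only [RingHom.mapMatrix_apply, Matrix.map_apply, Matrix.add_apply, Matrix.smul_apply,
      smul_eq_mul, map_add, map_mul]
    have h3 : φ (ℓ : ℤ) = 0 := by
      rw [hφ, eq_intCast]
      simp
    rw [h3, zero_mul, add_zero]
    by_cases hij : i = j
    · subst hij
      simp
    · simp [Matrix.one_apply_ne hij]
  rw [h2, Matrix.det_one] at h1
  exact one_ne_zero h1

/-- **growth of the determinant**: if `A ^ n ≡ 1 mod ℓ ^ 2` then
`det (1 - A ^ (n ℓ)) = det (1 - A ^ n) * ℓ ^ d * u` with `ℓ ∤ u`. -/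
theorem det_one_sub_pow_mul {ℓ : ℕ} [hℓ : Fact ℓ.Prime] (A : Matrix (Fin d) (Fin d) ℤ) {n : ℕ}
    (h : MatCong ℓ (A ^ n)) :
    ∃ u : ℤ, ¬ (ℓ : ℤ) ∣ u ∧
      (1 - A ^ (n * ℓ)).det = (1 - A ^ n).det * ((ℓ : ℤ) ^ d * u) := by
  obtain ⟨M, hM⟩ := geom_sum_of_matCong h
  refine ⟨(1 + (ℓ : ℤ) • M).det, not_dvd_det_one_add ℓ M, ?_⟩
  have h1 : (1 - A ^ (n * ℓ)) = (1 - A ^ n) * ∑ i ∈ range ℓ, (A ^ n) ^ i := by
    rw [pow_mul]
    exact (mul_neg_geom_sum (A ^ n) ℓ).symm
  rw [h1, Matrix.det_mul, hM, Matrix.det_smul, Fintype.card_fin]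

/-- **D7**: if `h m = |det (1 - A ^ m)|` is nonzero for `m > 0` and `ℓ ∤ det A`, then there is
`n₀ > 0` such that `v_ℓ (h (n ℓ)) = v_ℓ (h n) + d` for every positive multiple `n` of `n₀`. -/
theorem exists_growth (A : Matrix (Fin d) (Fin d) ℤ) (ℓ : ℕ) [hℓ : Fact ℓ.Prime]
    (hdet : ¬ (ℓ : ℤ) ∣ A.det) (h : ℕ → ℕ)
    (hh : ∀ m, 0 < m → h m = (1 - A ^ m).det.natAbs) (hne : ∀ m, 0 < m → h m ≠ 0) :
    ∃ n₀ : ℕ, 0 < n₀ ∧ ∀ n, 0 < n → n₀ ∣ n →
      (h (n * ℓ)).factorization ℓ = (h n).factorization ℓ + d := by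
  obtain ⟨n₀, hn₀, hcong⟩ := exists_pow_matCong A ℓ hdet
  refine ⟨n₀, hn₀, fun n hn hdvd => ?_⟩
  obtain ⟨c, rfl⟩ := hdvd
  have hcong' : MatCong ℓ (A ^ (n₀ * c)) := by
    rw [pow_mul]
    exact hcong.pow c
  obtain ⟨u, hu, hdetmul⟩ := det_one_sub_pow_mul A hcong'
  have hnℓ : 0 < n₀ * c * ℓ := Nat.mul_pos hn hℓ.out.pos
  have e1 := hh (n₀ * c * ℓ) hnℓ
  have e2 := hh (n₀ * c) hn
  have hne1 := hne (n₀ * c) hn
  have hu0 : u.natAbs ≠ 0 := by
    intro h0
    rw [Int.natAbs_eq_zero] at h0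
    rw [h0] at hu
    exact hu (dvd_zero _)
  have huℓ : ¬ ℓ ∣ u.natAbs := by
    intro hd
    apply hu
    exact Int.natCast_dvd.mpr hd
  rw [e1, hdetmul, Int.natAbs_mul, Int.natAbs_mul, Int.natAbs_pow, Int.natAbs_natCast, ← e2,
    Nat.factorization_mul hne1 (Nat.mul_ne_zero (pow_ne_zero d hℓ.out.ne_zero) hu0),
    Nat.factorization_mul (pow_ne_zero d hℓ.out.ne_zero) hu0]
  simp only [Finsupp.add_apply]
  rw [Nat.factorization_pow, Finsupp.smul_apply, hℓ.out.factorization_self,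
    Nat.factorization_eq_zero_of_not_dvd huℓ]
  simp

/-- **D7**, in the shape of the field `growth` of the abstract counting lemma (D8). -/
theorem exists_growth_padicValNat (A : Matrix (Fin d) (Fin d) ℤ) (ℓ : ℕ) [hℓ : Fact ℓ.Prime]
    (hdet : ¬ (ℓ : ℤ) ∣ A.det) (h : ℕ → ℕ)
    (hh : ∀ m, 0 < m → h m = (1 - A ^ m).det.natAbs) (hne : ∀ m, 0 < m → h m ≠ 0) :
    ∃ n₀ : ℕ, 0 < n₀ ∧ ∀ n, 0 < n → n₀ ∣ n →
      padicValNat ℓ (h (n * ℓ)) = padicValNat ℓ (h n) + d := by
  obtain ⟨n₀, hn₀, hg⟩ := exists_growth A ℓ hdet h hh hne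
  refine ⟨n₀, hn₀, fun n hn hdvd => ?_⟩
  have := hg n hn hdvd
  rwa [Nat.factorization_def _ hℓ.out, Nat.factorization_def _ hℓ.out] at this

end Fermat.Agent.S27
end MergeWrap_S27_Growth

section MergeWrap_S27_Zeta_Main -- from S27/Zeta/Main.lean

set_option autoImplicit false

/-!
# S27, part D: the torsion count in characteristic `p`  (assembly, helper28)

`frobCount`    : the hypotheses `FrobCount` of the abstract counting lemma (D8) hold for
                 `(Pic⁰ F, σ)`, `ℓ ≠ p`, `g = genusFF k F`.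
`card_torsion_of_frobStr` : `#Pic⁰(F)[ℓ^j] = ℓ^(2 g j)` for `ℓ ≠ p`.
-/

noncomputable section

open AlgebraicCurve

namespace Fermat.Agent.S27

open Fermat.Agent.RR

variable {k F : Type*} [Field k] [Field F] [Algebra k F]

/-- `J_m` is finite -/
theorem finite_fixedPow (hRR : IsRRField k F) (S : FrobStr k F) [IsAlgClosed k] (m : ℕ)
    (hm : 0 < m) : (fixedPow S.sigmaEnd m : Set (Pic0 k F)).Finite := by
  have h := finite_fixed_one hRR (S.pow m hm)
  rwa [S.fixedPow_pow m hm 1, mul_one] at h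

/-- the norm `J_{mℓ} → J_m` is surjective -/
theorem norm_surj (hRR : IsRRField k F) (S : FrobStr k F) [IsAlgClosed k] (ℓ : ℕ) (hℓ : 0 < ℓ)
    (m : ℕ) (hm : 0 < m) :
    ∀ x ∈ fixedPow S.sigmaEnd m, ∃ y ∈ fixedPow S.sigmaEnd (m * ℓ), normPow S.sigmaEnd m ℓ y = x := by
  intro x hx
  have hx' : x ∈ fixedPow (S.pow m hm).sigmaEnd 1 := by
    rw [S.fixedPow_pow m hm 1, mul_one]
    exact hx
  obtain ⟨y, hy, hxy⟩ := norm_surj_one hRR (S.pow m hm) ℓ hℓ x hx'
  refine ⟨y, ?_, ?_⟩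
  · rwa [S.fixedPow_pow m hm ℓ] at hy
  · rwa [S.normPow_pow m hm ℓ] at hxy

/-- **Part D.** The hypotheses of the abstract counting lemma. -/
theorem frobCount (hRR : IsRRField k F) (S : FrobStr k F) [IsAlgClosed k] (ℓ : ℕ)
    [hℓ : Fact ℓ.Prime] (hℓp : ℓ ≠ S.p) : FrobCount S.sigmaEnd ℓ (genusFF k F) := by
  obtain ⟨A, hdet, hA⟩ := exists_matrix hRR S
  have hndvd : ¬ (ℓ : ℤ) ∣ A.det := by
    rw [hdet]
    intro hd
    have h1 : (ℓ : ℤ) ∣ (S.q : ℤ) := (Nat.prime_iff_prime_int.mp hℓ.out).dvd_of_dvd_pow hd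
    have h2 : ℓ ∣ S.q := Int.natCast_dvd_natCast.mp h1
    have h3 : ℓ ∣ S.p := hℓ.out.dvd_of_dvd_pow h2
    exact hℓp ((Nat.prime_dvd_prime_iff_eq hℓ.out S.hp).mp h3)
  have hfin := finite_fixedPow hRR S
  have hne : ∀ m, 0 < m → Nat.card (fixedPow S.sigmaEnd m) ≠ 0 := by
    intro m hm
    have : Finite (fixedPow S.sigmaEnd m) := (hfin m hm).to_subtype
    exact Nat.card_ne_zero.mpr ⟨⟨⟨0, (fixedPow S.sigmaEnd m).zero_mem⟩⟩, inferInstance⟩
  have hh : ∀ m, 0 < m → Nat.card (fixedPow S.sigmaEnd m) = (1 - A ^ m).det.natAbs := by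
    intro m hm
    rw [← hA m hm, Int.natAbs_natCast]
  refine ⟨hfin, exhaust hRR S, fun m hm => norm_surj hRR S ℓ hℓ.out.pos m hm, ?_⟩
  exact exists_growth_padicValNat A ℓ hndvd (fun m => Nat.card (fixedPow S.sigmaEnd m)) hh hne

/-- **Part D, final form.** `#Pic⁰(F)[ℓ^j] = ℓ^(2 g j)` for a function field over `𝔽̄_p` with a
Frobenius structure, `ℓ ≠ p`. -/
theorem card_torsion_of_frobStr (hRR : IsRRField k F) (S : FrobStr k F) [IsAlgClosed k] (ℓ : ℕ)
    [hℓ : Fact ℓ.Prime] (hℓp : ℓ ≠ S.p) (j : ℕ) :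
    Nat.card (Pic0.torsion k F (ℓ ^ j)) = ℓ ^ (2 * genusFF k F * j) := by
  have h := card_tors_of_frobCount hℓ.out (frobCount hRR S ℓ hℓp) j
  rw [← h]
  refine Nat.card_congr (Equiv.subtypeEquivRight fun x => ?_)
  rw [Pic0.mem_torsion, mem_tors, natCast_zsmul]

end Fermat.Agent.S27
end
end MergeWrap_S27_Zeta_Main
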